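import Fermat.Agent.S05.SameRed
import Fermat.Agent.S05.VarChange

/-!
# GATE-Z / [MOD-beta] (T4), part 2: the predicate "zero component" at field level and its
invariance under integral changes of Weierstrass model

`K` any field, `A` a valuation subring, `W` a Weierstrass curve over `K` with coefficients in `A`
(vocabulary of `S05/SameRed`: `IntegralCoeffs A W`, `NonsingularRed A W x y`).

* `GoodAt A W x y` : `x ∉ A`, or `x, y ∈ A` and the reduction of `(x, y)` is a nonsingular point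
  of the reduced cubic — the field-level form of the frozen `WeierstrassCurve.InZeroComponentAt`.
* `IntegralChange A C` : the variable change `C` has `u, u⁻¹, r, s, t ∈ A`.
* `goodAt_smul_iff` : `GoodAt A (C • W) x y ↔ GoodAt A W (vcX C x) (vcY C x y)`.
* `integralChange_of_c₄` : **Silverman VII.1.3 (b)** in every residue characteristic: a variable
  change between two `A`-integral models with unit `c₄` is `A`-integral.
* `goodAt_map_iff` : invariance of `GoodAt` under field extension, `A = A'.comap i`.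
-/

set_option autoImplicit false
set_option linter.unusedSectionVars false

namespace Fermat.Agent.GZ.Tate.T4

open WeierstrassCurve
open Fermat.Agent.S05 Fermat.Agent.S05.SameRed

variable {K : Type*} [Field K]

/-- The affine point `(x, y)` of the `A`-integral Weierstrass curve `W` lies in the zero component:
either `x ∉ A` (it reduces to the origin) or it is integral and reduces to a nonsingular point. -/
def GoodAt (A : ValuationSubring K) (W : WeierstrassCurve K) (x y : K) : Prop :=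
  x ∉ A ∨ (x ∈ A ∧ y ∈ A ∧ NonsingularRed A W x y)

/-- The variable change `C` is `A`-integral (with `A`-integral inverse). -/
structure IntegralChange (A : ValuationSubring K) (C : VariableChange K) : Prop where
  u : (C.u : K) ∈ A
  u_inv : (C.u : K)⁻¹ ∈ A
  r : C.r ∈ A
  s : C.s ∈ A
  t : C.t ∈ A

section ValBasics

variable {A : ValuationSubring K}

theorem val_eq_one_of_mem_of_inv_mem {z : K} (hz0 : z ≠ 0) (hz : z ∈ A) (hz' : z⁻¹ ∈ A) :
    A.valuation z = 1 := by
  have h1 : A.valuation z ≤ 1 := (A.valuation_le_one_iff z).2 hz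
  have h2 : A.valuation z⁻¹ ≤ 1 := (A.valuation_le_one_iff _).2 hz'
  by_contra hne
  have hlt : A.valuation z < 1 := lt_of_le_of_ne h1 hne
  have hv0 : A.valuation z ≠ 0 := (Valuation.ne_zero_iff _).2 hz0
  have : A.valuation z * A.valuation z⁻¹ = 1 := by
    rw [← map_mul, mul_inv_cancel₀ hz0, map_one]
  have h3 : A.valuation z * A.valuation z⁻¹ < 1 := by
    calc A.valuation z * A.valuation z⁻¹ ≤ A.valuation z * 1 := by
          exact mul_le_mul_right h2 _
      _ = A.valuation z := mul_one _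
      _ < 1 := hlt
  rw [this] at h3
  exact lt_irrefl _ h3

theorem unit_mul_mem_nonunits_iff {z w : K} (hz : A.valuation z = 1) :
    z * w ∈ A.nonunits ↔ w ∈ A.nonunits := by
  rw [ValuationSubring.mem_nonunits_iff, ValuationSubring.mem_nonunits_iff, map_mul, hz, one_mul]

theorem unit_mul_mem_iff {z w : K} (hz : A.valuation z = 1) : z * w ∈ A ↔ w ∈ A := by
  rw [← A.valuation_le_one_iff, ← A.valuation_le_one_iff, map_mul, hz, one_mul]

theorem val_pow_eq_one {z : K} (hz : A.valuation z = 1) (n : ℕ) : A.valuation (z ^ n) = 1 := by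
  rw [map_pow, hz, one_pow]

end ValBasics

namespace IntegralChange

variable {A : ValuationSubring K} {C : VariableChange K}

theorem val_u (h : IntegralChange A C) : A.valuation (C.u : K) = 1 :=
  val_eq_one_of_mem_of_inv_mem C.u.ne_zero h.u h.u_inv

theorem val_u_pow (h : IntegralChange A C) (n : ℕ) : A.valuation ((C.u : K) ^ n) = 1 :=
  val_pow_eq_one h.val_u n

theorem u_inv' (h : IntegralChange A C) : ((C.u⁻¹ : Kˣ) : K) ∈ A := by
  rw [Units.val_inv_eq_inv_val]; exact h.u_inv

/-- An integral change maps integral models to integral models. -/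
theorem integralCoeffs_smul (h : IntegralChange A C) {W : WeierstrassCurve K}
    (hW : IntegralCoeffs A W) : IntegralCoeffs A (C • W) := by
  have hu := h.u_inv'
  have h2 : (2 : K) ∈ A := ofNat_mem A 2
  have h3 : (3 : K) ∈ A := ofNat_mem A 3
  refine ⟨?_, ?_, ?_, ?_, ?_⟩
  · rw [variableChange_a₁]
    exact mul_mem hu (add_mem hW.a₁ (mul_mem h2 h.s))
  · rw [variableChange_a₂]
    exact mul_mem (pow_mem hu 2)
      (sub_mem (add_mem (sub_mem hW.a₂ (mul_mem h.s hW.a₁)) (mul_mem h3 h.r)) (pow_mem h.s 2))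
  · rw [variableChange_a₃]
    exact mul_mem (pow_mem hu 3) (add_mem (add_mem hW.a₃ (mul_mem h.r hW.a₁)) (mul_mem h2 h.t))
  · rw [variableChange_a₄]
    refine mul_mem (pow_mem hu 4) ?_
    refine sub_mem (add_mem (sub_mem (add_mem (sub_mem hW.a₄ (mul_mem h.s hW.a₃))
      (mul_mem (mul_mem h2 h.r) hW.a₂)) (mul_mem (add_mem h.t (mul_mem h.r h.s)) hW.a₁))
      (mul_mem h3 (pow_mem h.r 2))) (mul_mem (mul_mem h2 h.s) h.t)
  · rw [variableChange_a₆]
    refine mul_mem (pow_mem hu 6) ?_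
    refine sub_mem (sub_mem (sub_mem (add_mem (add_mem (add_mem hW.a₆ (mul_mem h.r hW.a₄))
      (mul_mem (pow_mem h.r 2) hW.a₂)) (pow_mem h.r 3)) (mul_mem h.t hW.a₃)) (pow_mem h.t 2))
      (mul_mem (mul_mem h.r h.t) hW.a₁)

theorem vcX_mem_iff (h : IntegralChange A C) {x : K} : vcX C x ∈ A ↔ x ∈ A := by
  unfold vcX
  constructor
  · intro hx
    have : (C.u : K) ^ 2 * x ∈ A := by
      have := sub_mem hx h.r
      rwa [add_sub_cancel_right] at this
    exact (unit_mul_mem_iff (h.val_u_pow 2)).1 this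
  · intro hx
    exact add_mem (mul_mem (pow_mem h.u 2) hx) h.r

theorem vcY_mem_iff (h : IntegralChange A C) {x y : K} (hx : x ∈ A) :
    vcY C x y ∈ A ↔ y ∈ A := by
  unfold vcY
  have hsx : (C.u : K) ^ 2 * C.s * x ∈ A := mul_mem (mul_mem (pow_mem h.u 2) h.s) hx
  constructor
  · intro hy
    have : (C.u : K) ^ 3 * y ∈ A := by
      have := sub_mem (sub_mem hy h.t) hsx
      have e : (C.u : K) ^ 3 * y + (C.u : K) ^ 2 * C.s * x + C.t - C.t
          - (C.u : K) ^ 2 * C.s * x = (C.u : K) ^ 3 * y := by ring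
      rwa [e] at this
    exact (unit_mul_mem_iff (h.val_u_pow 3)).1 this
  · intro hy
    exact add_mem (add_mem (mul_mem (pow_mem h.u 3) hy) hsx) h.t

/-- Nonsingularity of the reduction is invariant under an integral change of model. -/
theorem nonsingularRed_smul_iff (h : IntegralChange A C) {W : WeierstrassCurve K}
    (hW : IntegralCoeffs A W) {x y : K} (hx : x ∈ A) (hy : y ∈ A) :
    NonsingularRed A (C • W) x y ↔ NonsingularRed A W (vcX C x) (vcY C x y) := by
  have hW' := h.integralCoeffs_smul hW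
  unfold NonsingularRed
  rw [vc_polyX_eq, vc_polyY_eq]
  set P := (C • W).a₁ * y - (3 * x ^ 2 + 2 * (C • W).a₂ * x + (C • W).a₄) with hP
  set Q := 2 * y + (C • W).a₁ * x + (C • W).a₃ with hQ
  have h2 : (2 : K) ∈ A := ofNat_mem A 2
  have h3 : (3 : K) ∈ A := ofNat_mem A 3
  have hPA : P ∈ A :=
    sub_mem (mul_mem hW'.a₁ hy)
      (add_mem (add_mem (mul_mem h3 (pow_mem hx 2)) (mul_mem (mul_mem h2 hW'.a₂) hx)) hW'.a₄)
  have hQA : Q ∈ A := add_mem (add_mem (mul_mem h2 hy) (mul_mem hW'.a₁ hx)) hW'.a₃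
  have e3 : (C.u : K) ^ 3 * Q ∈ A.nonunits ↔ Q ∈ A.nonunits :=
    unit_mul_mem_nonunits_iff (h.val_u_pow 3)
  have e4 : (C.u : K) ^ 4 * P ∈ A.nonunits ↔ P ∈ A.nonunits :=
    unit_mul_mem_nonunits_iff (h.val_u_pow 4)
  by_cases hQm : Q ∈ A.nonunits
  · have hsQ : C.s * ((C.u : K) ^ 3 * Q) ∈ A.nonunits := nu_mul_right A h.s (e3.2 hQm)
    have e : (C.u : K) ^ 4 * P - C.s * ((C.u : K) ^ 3 * Q) ∈ A.nonunits ↔ P ∈ A.nonunits := by
      rw [← e4]
      constructor
      · intro hd
        have := nu_add A hd hsQ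
        rwa [sub_add_cancel] at this
      · intro hp
        exact nu_sub A hp hsQ
    rw [e, e3]
  · have : (C.u : K) ^ 3 * Q ∉ A.nonunits := fun hc => hQm (e3.1 hc)
    exact ⟨fun _ => Or.inr this, fun _ => Or.inr hQm⟩

end IntegralChange

/-- **Model invariance of the zero component.** -/
theorem goodAt_smul_iff {A : ValuationSubring K} {C : VariableChange K} (h : IntegralChange A C)
    {W : WeierstrassCurve K} (hW : IntegralCoeffs A W) (x y : K) :
    GoodAt A (C • W) x y ↔ GoodAt A W (vcX C x) (vcY C x y) := by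
  unfold GoodAt
  by_cases hx : x ∈ A
  · have hx' : vcX C x ∈ A := h.vcX_mem_iff.2 hx
    by_cases hy : y ∈ A
    · have hy' : vcY C x y ∈ A := (h.vcY_mem_iff hx).2 hy
      simp only [hx, hx', hy, hy', not_true_eq_false, true_and, false_or]
      exact h.nonsingularRed_smul_iff hW hx hy
    · have hy' : vcY C x y ∉ A := fun hc => hy ((h.vcY_mem_iff hx).1 hc)
      simp [hx, hx', hy, hy']
  · have hx' : vcX C x ∉ A := fun hc => hx (h.vcX_mem_iff.1 hc)
    simp [hx, hx']

/-! ### Integrality of the `b`-invariants -/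

section BInv

variable {A : ValuationSubring K} {W : WeierstrassCurve K}

theorem b₂_mem (hW : IntegralCoeffs A W) : W.b₂ ∈ A := by
  rw [WeierstrassCurve.b₂]
  exact add_mem (pow_mem hW.a₁ 2) (mul_mem (ofNat_mem A 4) hW.a₂)

theorem b₄_mem (hW : IntegralCoeffs A W) : W.b₄ ∈ A := by
  rw [WeierstrassCurve.b₄]
  exact add_mem (mul_mem (ofNat_mem A 2) hW.a₄) (mul_mem hW.a₁ hW.a₃)

theorem b₆_mem (hW : IntegralCoeffs A W) : W.b₆ ∈ A := by
  rw [WeierstrassCurve.b₆]
  exact add_mem (pow_mem hW.a₃ 2) (mul_mem (ofNat_mem A 4) hW.a₆)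

theorem b₈_mem (hW : IntegralCoeffs A W) : W.b₈ ∈ A := by
  rw [WeierstrassCurve.b₈]
  exact sub_mem (add_mem (sub_mem (add_mem (mul_mem (pow_mem hW.a₁ 2) hW.a₆)
    (mul_mem (mul_mem (ofNat_mem A 4) hW.a₂) hW.a₆)) (mul_mem (mul_mem hW.a₁ hW.a₃) hW.a₄))
    (mul_mem hW.a₂ (pow_mem hW.a₃ 2))) (pow_mem hW.a₄ 2)

theorem c₄_mem (hW : IntegralCoeffs A W) : W.c₄ ∈ A := by
  rw [WeierstrassCurve.c₄]
  exact sub_mem (pow_mem (b₂_mem hW) 2) (mul_mem (ofNat_mem A 24) (b₄_mem hW))

end BInv

/-! ### Silverman VII.1.3 (b): a change between integral models with unit `c₄` is integral -/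

section Integrality

variable {A : ValuationSubring K}

theorem one_notMem_nonunits : (1 : K) ∉ A.nonunits := by
  rw [ValuationSubring.mem_nonunits_iff, map_one]; exact lt_irrefl _

theorem val_eq_one_of_mem_of_notMem_nonunits {z : K} (hz : z ∈ A) (hz' : z ∉ A.nonunits) :
    A.valuation z = 1 := by
  refine le_antisymm ((A.valuation_le_one_iff z).2 hz) ?_
  by_contra hlt
  exact hz' ((ValuationSubring.mem_nonunits_iff A).2 (not_le.1 hlt))

theorem mem_of_val_eq_one {z : K} (hz : A.valuation z = 1) : z ∈ A :=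
  (A.valuation_le_one_iff z).1 hz.le

/-- A root of a monic quadratic with coefficients in `A` lies in `A`. -/
theorem root_mem_of_monic_quadratic {b c x : K} (hb : b ∈ A) (hc : c ∈ A)
    (h : x ^ 2 + b * x + c = 0) : x ∈ A := by
  by_contra hx
  have hx0 : x ≠ 0 := by
    rintro rfl
    exact hx A.zero_mem
  have hρ : x⁻¹ ∈ A.nonunits := (ValuationSubring.inv_mem_nonunits_iff A).2 (Or.inr hx)
  have hρA : x⁻¹ ∈ A := A.nonunits_subset hρ
  have e : (1 : K) = -((b + c * x⁻¹) * x⁻¹) := by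
    field_simp
    linear_combination h
  apply one_notMem_nonunits (A := A)
  rw [e]
  exact nu_neg A (nu_mul_right A (add_mem hb (mul_mem hc hρA)) hρ)

/-- **Silverman VII.1.3 (b)**, all residue characteristics: if `W` and `C • W` both have
coefficients in `A` and both have `c₄` a unit of `A`, then `C` is `A`-integral. -/
theorem integralChange_of_c₄ {W : WeierstrassCurve K} {C : VariableChange K}
    (hW : IntegralCoeffs A W) (hW' : IntegralCoeffs A (C • W))
    (hc : W.c₄ ∉ A.nonunits) (hc' : (C • W).c₄ ∉ A.nonunits) : IntegralChange A C := by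
  set u : K := (C.u : K) with hu
  have hu0 : u ≠ 0 := C.u.ne_zero
  have hinv : ((C.u⁻¹ : Kˣ) : K) = u⁻¹ := Units.val_inv_eq_inv_val _
  -- Step 1: `u` is a unit of `A`.
  have hvc : A.valuation W.c₄ = 1 := val_eq_one_of_mem_of_notMem_nonunits (c₄_mem hW) hc
  have hvc' : A.valuation (C • W).c₄ = 1 :=
    val_eq_one_of_mem_of_notMem_nonunits (c₄_mem hW') hc'
  have hvu : A.valuation u⁻¹ = 1 := by
    have h4 : A.valuation u⁻¹ ^ 4 = 1 := by
      have := hvc'
      rw [variableChange_c₄, hinv, map_mul, map_pow, hvc, mul_one] at this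
      exact this
    exact (pow_eq_one_iff.1 h4).resolve_right (by norm_num)
  have hvu' : A.valuation u = 1 := by
    have := hvu
    rwa [map_inv₀, inv_eq_one] at this
  have huA : u ∈ A := mem_of_val_eq_one hvu'
  have huA' : u⁻¹ ∈ A := mem_of_val_eq_one hvu
  -- Step 2: `r ∈ A`.
  have hr : C.r ∈ A := by
    by_contra hr
    have hr0 : C.r ≠ 0 := by
      intro h0
      exact hr (h0 ▸ A.zero_mem)
    have hρ : C.r⁻¹ ∈ A.nonunits := (ValuationSubring.inv_mem_nonunits_iff A).2 (Or.inr hr)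
    have hρA : C.r⁻¹ ∈ A := A.nonunits_subset hρ
    have hb6 : u ^ 6 * (C • W).b₆ =
        W.b₆ + 2 * C.r * W.b₄ + C.r ^ 2 * W.b₂ + 4 * C.r ^ 3 := by
      rw [variableChange_b₆, hinv]; field_simp
    have hb8 : u ^ 8 * (C • W).b₈ =
        W.b₈ + 3 * C.r * W.b₆ + 3 * C.r ^ 2 * W.b₄ + C.r ^ 3 * W.b₂ + 3 * C.r ^ 4 := by
      rw [variableChange_b₈, hinv]; field_simp
    have e4 : (4 : K) = (C.r⁻¹ ^ 2 * (u ^ 6 * (C • W).b₆ - W.b₆) - 2 * C.r⁻¹ * W.b₄ - W.b₂)
        * C.r⁻¹ := by
      rw [hb6]; field_simp; ring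
    have e3 : (3 : K) = (C.r⁻¹ ^ 3 * (u ^ 8 * (C • W).b₈ - W.b₈) - 3 * C.r⁻¹ ^ 2 * W.b₆
        - 3 * C.r⁻¹ * W.b₄ - W.b₂) * C.r⁻¹ := by
      rw [hb8]; field_simp; ring
    have h4 : (4 : K) ∈ A.nonunits := by
      rw [e4]
      refine nu_mul_right A ?_ hρ
      exact sub_mem (sub_mem (mul_mem (pow_mem hρA 2)
        (sub_mem (mul_mem (pow_mem huA 6) (b₆_mem hW')) (b₆_mem hW)))
        (mul_mem (mul_mem (ofNat_mem A 2) hρA) (b₄_mem hW))) (b₂_mem hW)
    have h3 : (3 : K) ∈ A.nonunits := by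
      rw [e3]
      refine nu_mul_right A ?_ hρ
      exact sub_mem (sub_mem (sub_mem (mul_mem (pow_mem hρA 3)
        (sub_mem (mul_mem (pow_mem huA 8) (b₈_mem hW')) (b₈_mem hW)))
        (mul_mem (mul_mem (ofNat_mem A 3) (pow_mem hρA 2)) (b₆_mem hW)))
        (mul_mem (mul_mem (ofNat_mem A 3) hρA) (b₄_mem hW))) (b₂_mem hW)
    have h1 : (1 : K) ∈ A.nonunits := by
      have := nu_sub A h4 h3
      norm_num at this
      exact this
    exact one_notMem_nonunits h1
  -- Step 3: `s ∈ A`.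
  have hs : C.s ∈ A := by
    have ha2 : u ^ 2 * (C • W).a₂ = W.a₂ - C.s * W.a₁ + 3 * C.r - C.s ^ 2 := by
      rw [variableChange_a₂, hinv]; field_simp
    refine root_mem_of_monic_quadratic (b := W.a₁)
      (c := u ^ 2 * (C • W).a₂ - W.a₂ - 3 * C.r) hW.a₁ ?_ ?_
    · exact sub_mem (sub_mem (mul_mem (pow_mem huA 2) hW'.a₂) hW.a₂)
        (mul_mem (ofNat_mem A 3) hr)
    · rw [ha2]; ring
  -- Step 4: `t ∈ A`.
  have ht : C.t ∈ A := by
    have ha6 : u ^ 6 * (C • W).a₆ = W.a₆ + C.r * W.a₄ + C.r ^ 2 * W.a₂ + C.r ^ 3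
        - C.t * W.a₃ - C.t ^ 2 - C.r * C.t * W.a₁ := by
      rw [variableChange_a₆, hinv]; field_simp
    refine root_mem_of_monic_quadratic (b := W.a₃ + C.r * W.a₁)
      (c := u ^ 6 * (C • W).a₆ - W.a₆ - C.r * W.a₄ - C.r ^ 2 * W.a₂ - C.r ^ 3)
      (add_mem hW.a₃ (mul_mem hr hW.a₁)) ?_ ?_
    · exact sub_mem (sub_mem (sub_mem (sub_mem (mul_mem (pow_mem huA 6) hW'.a₆) hW.a₆)
        (mul_mem hr hW.a₄)) (mul_mem (pow_mem hr 2) hW.a₂)) (pow_mem hr 3)
    · rw [ha6]; ring
  exact ⟨huA, huA', hr, hs, ht⟩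

end Integrality

/-! ### Invariance under field extension -/

section Extension

variable {K' : Type*} [Field K'] (i : K →+* K') (A' : ValuationSubring K')

theorem mem_nonunits_comap_iff {x : K} : x ∈ (A'.comap i).nonunits ↔ i x ∈ A'.nonunits := by
  rw [ValuationSubring.mem_nonunits_iff_or, ValuationSubring.mem_nonunits_iff_or,
    ValuationSubring.mem_comap, map_inv₀, map_eq_zero]

theorem integralCoeffs_map_iff {W : WeierstrassCurve K} :
    IntegralCoeffs A' (W.map i) ↔ IntegralCoeffs (A'.comap i) W := by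
  constructor
  · intro h
    exact ⟨h.a₁, h.a₂, h.a₃, h.a₄, h.a₆⟩
  · intro h
    exact ⟨h.a₁, h.a₂, h.a₃, h.a₄, h.a₆⟩

theorem nonsingularRed_map_iff {W : WeierstrassCurve K} {x y : K} :
    NonsingularRed A' (W.map i) (i x) (i y) ↔ NonsingularRed (A'.comap i) W x y := by
  unfold NonsingularRed
  rw [mem_nonunits_comap_iff, mem_nonunits_comap_iff]
  simp only [WeierstrassCurve.map_a₁, WeierstrassCurve.map_a₂, WeierstrassCurve.map_a₃,
    WeierstrassCurve.map_a₄, map_sub, map_add, map_mul, map_pow, map_ofNat]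

/-- `GoodAt` only depends on the trace of the valuation ring on a subfield containing the
curve and the point. -/
theorem goodAt_map_iff {W : WeierstrassCurve K} {x y : K} :
    GoodAt A' (W.map i) (i x) (i y) ↔ GoodAt (A'.comap i) W x y := by
  unfold GoodAt
  rw [nonsingularRed_map_iff]
  simp only [ValuationSubring.mem_comap]

end Extension

end Fermat.Agent.GZ.Tate.T4
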