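import Fermat.Agent.GZ.Tate.T4.Series
import Fermat.Agent.GZ.Tate.T4.Model

/-!
# GATE-Z / [MOD-beta] (T4), part 3: reduction of the Tate parametrisation

`K` an ultrametric normed field, `unitBall K` its valuation ring `{‖x‖ ≤ 1}`.  For `q ≠ 0`, `‖q‖ < 1`
the Tate curve `tateCurve q : y² + xy = x³ + a₄ x + a₆` has coefficients in the unit ball,
`c₄` is a unit, and its reduction is the nodal cubic `y² + xy = x³`.  For `u` in the fundamental
annulus `‖q‖ < ‖u‖ ≤ 1`, `u ≠ 1`: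

  `GoodAt (unitBall K) (tateCurve q) (X q u) (Y q u) ↔ ‖u‖ = 1`     (`goodAt_tate_iff`)

i.e. `P(u)` lies in the zero component iff `u` is a unit.
-/

set_option autoImplicit false
set_option linter.unusedSectionVars false

namespace Fermat.Agent.GZ.Tate.T4

open WeierstrassCurve IsUltrametricDist
open Fermat.Agent.S05 Fermat.Agent.S05.SameRed

section Ball

variable (K : Type*) [NormedField K] [IsUltrametricDist K]

/-- The closed unit ball of an ultrametric normed field, as a valuation subring. -/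
def unitBall : ValuationSubring K where
  carrier := {x | ‖x‖ ≤ 1}
  mul_mem' {a b} ha hb := by
    simp only [Set.mem_ofPred_eq] at ha hb ⊢
    rw [norm_mul]; exact mul_le_one₀ ha (norm_nonneg _) hb
  one_mem' := by simp
  add_mem' {a b} ha hb := by
    simp only [Set.mem_ofPred_eq] at ha hb ⊢
    exact (norm_add_le_max a b).trans (max_le ha hb)
  zero_mem' := by simp
  neg_mem' {a} ha := by
    simp only [Set.mem_ofPred_eq] at ha ⊢
    rwa [norm_neg]
  mem_or_inv_mem' a := by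
    simp only [Set.mem_ofPred_eq]
    rcases le_total ‖a‖ 1 with h | h
    · exact Or.inl h
    · right
      rw [norm_inv]
      exact inv_le_one_of_one_le₀ h

variable {K}

theorem mem_unitBall {x : K} : x ∈ unitBall K ↔ ‖x‖ ≤ 1 := Iff.rfl

theorem mem_nonunits_unitBall {x : K} : x ∈ (unitBall K).nonunits ↔ ‖x‖ < 1 := by
  rw [ValuationSubring.mem_nonunits_iff_or]
  by_cases hx : x = 0
  · subst hx; simp
  · have hpos : 0 < ‖x‖ := norm_pos_iff.2 hx
    simp only [hx, false_or, mem_unitBall, norm_inv, not_le]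
    rw [one_lt_inv₀ hpos]

theorem notMem_nonunits_of_norm_eq_one {x : K} (hx : ‖x‖ = 1) : x ∉ (unitBall K).nonunits := by
  rw [mem_nonunits_unitBall, hx]; exact lt_irrefl _

/-- Congruence modulo the maximal ideal does not change "unit or not". -/
theorem mem_nonunits_congr {x y : K} (h : ‖x - y‖ < 1) :
    x ∈ (unitBall K).nonunits ↔ y ∈ (unitBall K).nonunits := by
  have hd : x - y ∈ (unitBall K).nonunits := mem_nonunits_unitBall.2 h
  constructor
  · intro hx
    have := nu_sub _ hx hd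
    rwa [sub_sub_cancel] at this
  · intro hy
    have := nu_add _ hd hy
    rwa [sub_add_cancel] at this

end Ball

section Tate

variable {K : Type*} [NormedField K] [IsUltrametricDist K] {q u : K}

theorem integralCoeffs_tateCurve (hq1 : ‖q‖ < 1) : IntegralCoeffs (unitBall K) (tateCurve q) where
  a₁ := by show ‖(1 : K)‖ ≤ 1; simp
  a₂ := by show ‖(0 : K)‖ ≤ 1; simp
  a₃ := by show ‖(0 : K)‖ ≤ 1; simp
  a₄ := (norm_a4_le hq1).trans hq1.le
  a₆ := (norm_a6_le hq1).trans hq1.le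

theorem tateCurve_c₄ (q : K) : (tateCurve q).c₄ = 1 - 48 * a4 q := by
  simp only [tateCurve, WeierstrassCurve.c₄, WeierstrassCurve.b₂, WeierstrassCurve.b₄]
  ring

theorem natCast_mul_mem_nonunits (n : ℕ) {x : K} (hx : ‖x‖ < 1) :
    (n : K) * x ∈ (unitBall K).nonunits := by
  rw [mem_nonunits_unitBall, norm_mul]
  calc ‖(n : K)‖ * ‖x‖ ≤ 1 * ‖x‖ :=
        mul_le_mul_of_nonneg_right (IsUltrametricDist.norm_natCast_le_one K n) (norm_nonneg _)
    _ = ‖x‖ := one_mul _
    _ < 1 := hx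

/-- `c₄` of the Tate curve is a unit. -/
theorem norm_tateCurve_c₄ (hq1 : ‖q‖ < 1) : ‖(tateCurve q).c₄‖ = 1 := by
  rw [tateCurve_c₄]
  have h : ‖(48 : K) * a4 q‖ < 1 := by
    have := natCast_mul_mem_nonunits (K := K) 48 ((norm_a4_le hq1).trans_lt hq1)
    rw [mem_nonunits_unitBall] at this
    simpa using this
  exact norm_one_sub_of_lt h

theorem tateCurve_c₄_notMem (hq1 : ‖q‖ < 1) : (tateCurve q).c₄ ∉ (unitBall K).nonunits :=
  notMem_nonunits_of_norm_eq_one (norm_tateCurve_c₄ hq1)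

/-- The two partial derivatives of the Tate cubic at `(x, y)`. -/
theorem nonsingularRed_tate_iff (x y : K) :
    NonsingularRed (unitBall K) (tateCurve q) x y ↔
      (y - (3 * x ^ 2 + a4 q) ∉ (unitBall K).nonunits ∨ 2 * y + x ∉ (unitBall K).nonunits) := by
  unfold NonsingularRed
  simp only [tateCurve, one_mul, mul_zero, zero_mul, add_zero]

/-- **(T4.c)** Points reducing to `(0,0)` are not in the zero component. -/
theorem not_goodAt_tate_of_small (hq1 : ‖q‖ < 1) {x y : K} (hx : ‖x‖ < 1) (hy : ‖y‖ < 1) :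
    ¬ GoodAt (unitBall K) (tateCurve q) x y := by
  rintro (h | ⟨_, _, h⟩)
  · exact h hx.le
  · rw [nonsingularRed_tate_iff] at h
    have hxm : x ∈ (unitBall K).nonunits := mem_nonunits_unitBall.2 hx
    have hym : y ∈ (unitBall K).nonunits := mem_nonunits_unitBall.2 hy
    have ha : a4 q ∈ (unitBall K).nonunits :=
      mem_nonunits_unitBall.2 ((norm_a4_le hq1).trans_lt hq1)
    have h2 : (2 : K) ∈ unitBall K := ofNat_mem _ 2
    have h3 : (3 : K) ∈ unitBall K := ofNat_mem _ 3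
    rcases h with h | h
    · apply h
      refine nu_sub _ hym (nu_add _ ?_ ha)
      exact nu_mul_right _ h3 (by
        have := nu_mul_left _ hxm (nu_mem _ hxm)
        rwa [← sq] at this)
    · apply h
      exact nu_add _ (nu_mul_right _ h2 hym) hxm

/-- The algebra behind **(T4.a)**: at `(F(u), G(u))` the partials of `y² + xy - x³` are
`-u²(2+u)/(1-u)⁴` and `u(1+u)/(1-u)³`; they cannot both be non-units. -/
theorem nonsingular_node_param (hu : ‖u‖ = 1) (h1u : ‖1 - u‖ = 1) :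
    yTerm u - 3 * xTerm u ^ 2 ∉ (unitBall K).nonunits ∨
      2 * yTerm u + xTerm u ∉ (unitBall K).nonunits := by
  have h1 : (1 : K) - u ≠ 0 := by
    intro h
    rw [h, norm_zero] at h1u
    exact zero_ne_one h1u
  have eX : yTerm u - 3 * xTerm u ^ 2 = -(u ^ 2 * (2 + u)) / (1 - u) ^ 4 := by
    unfold yTerm xTerm; field_simp; ring
  have eY : 2 * yTerm u + xTerm u = u * (1 + u) / (1 - u) ^ 3 := by
    unfold yTerm xTerm; field_simp; ring
  by_contra hcon
  push Not at hcon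
  obtain ⟨hX, hY⟩ := hcon
  rw [eX, mem_nonunits_unitBall, norm_div, norm_neg, norm_mul, norm_pow, norm_pow, hu, h1u,
    one_pow, one_pow, one_mul, div_one] at hX
  rw [eY, mem_nonunits_unitBall, norm_div, norm_mul, norm_pow, hu, h1u, one_pow, one_mul,
    div_one] at hY
  have : ‖(1 : K)‖ < 1 := by
    have e : (1 : K) = (2 + u) - (1 + u) := by ring
    rw [e, sub_eq_add_neg]
    refine (norm_add_le_max _ _).trans_lt (max_lt hX ?_)
    rwa [norm_neg]
  rw [norm_one] at this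
  exact lt_irrefl _ this

/-- **(T4.a)** Units of the fundamental annulus outside the residue disc of `1` map to the zero
component: the reduction is the nonsingular point `(ū/(1-ū)², ū²/(1-ū)³)` of the nodal cubic. -/
theorem goodAt_tate_of_unit (hq0 : q ≠ 0) (hq1 : ‖q‖ < 1) (hu : ‖u‖ = 1) (h1u : ‖1 - u‖ = 1)
    (hsX : Summable fun n : ℤ => xTerm (q ^ n * u))
    (hsY : Summable fun n : ℤ => yTerm (q ^ n * u)) :
    GoodAt (unitBall K) (tateCurve q) (X q u) (Y q u) := by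
  have hX1 : ‖X q u‖ = 1 := norm_X_eq_one hq0 hq1 hu h1u hsX
  have hY1 : ‖Y q u‖ ≤ 1 := norm_Y_le_one hq0 hq1 hu h1u hsY
  have hdX : ‖X q u - xTerm u‖ < 1 := (norm_X_sub_le hq0 hq1 hu hsX).trans_lt hq1
  have hdY : ‖Y q u - yTerm u‖ < 1 := (norm_Y_sub_le hq0 hq1 hu hsY).trans_lt hq1
  have hF1 : ‖xTerm u‖ = 1 := norm_xTerm_eq_one hu h1u
  have ha : ‖a4 q‖ < 1 := (norm_a4_le hq1).trans_lt hq1
  refine Or.inr ⟨hX1.le, hY1, ?_⟩
  rw [nonsingularRed_tate_iff]
  have h3 : ‖(3 : K)‖ ≤ 1 := by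
    have := IsUltrametricDist.norm_natCast_le_one K 3
    simpa using this
  have h2 : ‖(2 : K)‖ ≤ 1 := by
    have := IsUltrametricDist.norm_natCast_le_one K 2
    simpa using this
  -- congruences of the two partials
  have cX : ‖(Y q u - (3 * X q u ^ 2 + a4 q)) - (yTerm u - 3 * xTerm u ^ 2)‖ < 1 := by
    have e : (Y q u - (3 * X q u ^ 2 + a4 q)) - (yTerm u - 3 * xTerm u ^ 2) =
        (Y q u - yTerm u) + (-(3 * ((X q u - xTerm u) * (X q u + xTerm u))) + -(a4 q)) := by
      ring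
    rw [e]
    refine (norm_add_le_max _ _).trans_lt (max_lt hdY ?_)
    refine (norm_add_le_max _ _).trans_lt (max_lt ?_ (by rwa [norm_neg]))
    rw [norm_neg, norm_mul, norm_mul]
    have hsum : ‖X q u + xTerm u‖ ≤ 1 :=
      (norm_add_le_max _ _).trans (max_le hX1.le hF1.le)
    calc ‖(3 : K)‖ * (‖X q u - xTerm u‖ * ‖X q u + xTerm u‖)
        ≤ 1 * (‖X q u - xTerm u‖ * 1) :=
          mul_le_mul h3 (mul_le_mul_of_nonneg_left hsum (norm_nonneg _))
            (mul_nonneg (norm_nonneg _) (norm_nonneg _)) zero_le_one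
      _ = ‖X q u - xTerm u‖ := by ring
      _ < 1 := hdX
  have cY : ‖(2 * Y q u + X q u) - (2 * yTerm u + xTerm u)‖ < 1 := by
    have e : (2 * Y q u + X q u) - (2 * yTerm u + xTerm u) =
        2 * (Y q u - yTerm u) + (X q u - xTerm u) := by ring
    rw [e]
    refine (norm_add_le_max _ _).trans_lt (max_lt ?_ hdX)
    rw [norm_mul]
    calc ‖(2 : K)‖ * ‖Y q u - yTerm u‖ ≤ 1 * ‖Y q u - yTerm u‖ :=
          mul_le_mul_of_nonneg_right h2 (norm_nonneg _)
      _ = ‖Y q u - yTerm u‖ := one_mul _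
      _ < 1 := hdY
  rw [mem_nonunits_congr cX, mem_nonunits_congr cY]
  exact nonsingular_node_param hu h1u

/-- **(T4.b)** Units in the residue disc of `1` (but `≠ 1`) map to the kernel of reduction. -/
theorem goodAt_tate_of_near_one (hq0 : q ≠ 0) (hq1 : ‖q‖ < 1) (hu : ‖u‖ = 1) (hu1 : u ≠ 1)
    (h1u : ‖1 - u‖ < 1) (hsX : Summable fun n : ℤ => xTerm (q ^ n * u)) :
    GoodAt (unitBall K) (tateCurve q) (X q u) (Y q u) :=
  Or.inl fun h => not_le.2 (one_lt_norm_X hq0 hq1 hu hu1 h1u hsX) h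

/-- **(T4), reduction of the Tate parametrisation on the fundamental annulus.** -/
theorem goodAt_tate_iff (hq0 : q ≠ 0) (hq1 : ‖q‖ < 1) (hu0 : ‖q‖ < ‖u‖) (hu1 : ‖u‖ ≤ 1)
    (hne : u ≠ 1) (hsX : Summable fun n : ℤ => xTerm (q ^ n * u))
    (hsY : Summable fun n : ℤ => yTerm (q ^ n * u)) :
    GoodAt (unitBall K) (tateCurve q) (X q u) (Y q u) ↔ ‖u‖ = 1 := by
  constructor
  · intro hg
    by_contra hu
    have hlt : ‖u‖ < 1 := lt_of_le_of_ne hu1 hu
    exact not_goodAt_tate_of_small hq1 (norm_X_lt_one hq0 hq1 hu0 hlt)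
      (norm_Y_lt_one hq0 hq1 hu0 hlt) hg
  · intro hu
    rcases lt_or_eq_of_le (norm_one_sub_le_of_le hu.le) with h | h
    · exact goodAt_tate_of_near_one hq0 hq1 hu hne h hsX
    · exact goodAt_tate_of_unit hq0 hq1 hu h hsX hsY

end Tate

/-! ### Roots of unity of order prime to the residue characteristic are not `≡ 1` -/

section RootsOfUnity

variable {K : Type*} [NormedField K] [IsUltrametricDist K]

theorem norm_eq_one_of_pow_eq_one {ζ : K} {p : ℕ} (hp : p ≠ 0) (h : ζ ^ p = 1) : ‖ζ‖ = 1 := by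
  have h1 : ‖ζ‖ ^ p = 1 := by rw [← norm_pow, h, norm_one]
  exact (pow_eq_one_iff_of_nonneg (norm_nonneg _) hp).1 h1

/-- **(T4.d)** `ζ^p = 1`, `ζ ≠ 1`, `‖(p : K)‖ = 1` ⟹ `‖1 - ζ‖ = 1`. -/
theorem norm_one_sub_root_eq_one {ζ : K} {p : ℕ} (hp0 : p ≠ 0) (hζ : ζ ^ p = 1) (hζ1 : ζ ≠ 1)
    (hpK : ‖(p : K)‖ = 1) : ‖1 - ζ‖ = 1 := by
  have hn : ‖ζ‖ = 1 := norm_eq_one_of_pow_eq_one hp0 hζ
  refine le_antisymm (norm_one_sub_le_of_le hn.le) ?_
  by_contra hlt
  push Not at hlt
  -- `0 = ∑_{k<p} ζ^k`, hence `p = ∑_{k<p} (1 - ζ^k)` with every term in the maximal ideal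
  have hgeom : ∑ k ∈ Finset.range p, ζ ^ k = 0 := by
    have h := geom_sum_mul ζ p
    rw [hζ, sub_self] at h
    exact (mul_eq_zero.1 h).resolve_right (sub_ne_zero.2 hζ1)
  have hsum : (p : K) = ∑ k ∈ Finset.range p, (1 - ζ ^ k) := by
    rw [Finset.sum_sub_distrib, hgeom, sub_zero]; simp
  have hterm : ∀ k : ℕ, ‖1 - ζ ^ k‖ ≤ ‖1 - ζ‖ := by
    intro k
    have e : 1 - ζ ^ k = (1 - ζ) * ∑ j ∈ Finset.range k, ζ ^ j := by
      exact (mul_neg_geom_sum ζ k).symm
    rw [e, norm_mul]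
    have hs : ‖∑ j ∈ Finset.range k, ζ ^ j‖ ≤ 1 := by
      refine IsUltrametricDist.norm_sum_le_of_forall_le_of_nonneg zero_le_one fun j _ => ?_
      rw [norm_pow, hn, one_pow]
    exact mul_le_of_le_one_right (norm_nonneg _) hs
  have : ‖(p : K)‖ ≤ ‖1 - ζ‖ := by
    rw [hsum]
    exact IsUltrametricDist.norm_sum_le_of_forall_le_of_nonneg (norm_nonneg _)
      fun k _ => hterm k
  rw [hpK] at this
  exact not_le.2 hlt this

end RootsOfUnity

end Fermat.Agent.GZ.Tate.T4
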