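import Mathlib
import Fermat.Prelude.Def_EllipticCurve_ZeroComponentAt
import Fermat.Agent.GZ.Tate.T4.Model

/-!
# GATE-Z / [MOD-beta] (T4), part 4: the frozen `InZeroComponentAt` at field level

* `nonsingular_residue_iff` : for a Weierstrass curve over a valuation ring `A`, nonsingularity of
  the reduced point over the residue field ⟺ one of the two partial derivatives is a unit of `A`
  (`S05/SameRed.NonsingularRed`).
* `inZeroComponentAt_iff` : the frozen `W.InZeroComponentAt A P` ⟺
  `P = 0 ∨ ∃ x y h, P = some x y h ∧ GoodAt A (W_ℚ̄) x y`.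
* `valuationSubring_rat_ext` : a valuation subring of `ℚ` in which the prime `ℓ` is a non-unit is
  determined by `ℓ`.
* `goodAt_rat_iff` : for a curve and a point defined over `ℚ`, `GoodAt` computed in any two
  valued fields of residue characteristic `ℓ` agree.
* `exists_rat_coords_of_fixed` : a `G_ℚ`-fixed point has rational coordinates.
-/

set_option autoImplicit false
set_option linter.unusedSectionVars false

namespace Fermat.Agent.GZ.Tate.T4

open WeierstrassCurve
open scoped WeierstrassCurve.Affine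
open Fermat.Agent.S05 Fermat.Agent.S05.SameRed

section Residue

variable {L : Type*} [Field L] (A : ValuationSubring L)

theorem coe_mem_nonunits_iff (z : A) :
    (z : L) ∈ A.nonunits ↔ IsLocalRing.residue A z = 0 := by
  rw [IsLocalRing.residue_eq_zero_iff, ValuationSubring.mem_nonunits_iff_exists_mem_maximalIdeal]
  constructor
  · rintro ⟨h, hm⟩
    exact hm
  · intro hm
    exact ⟨z.2, hm⟩

/-- Nonsingularity of the reduced point over the residue field, at field level. -/
theorem nonsingular_residue_iff (W : WeierstrassCurve A) {x y : L} (hx : x ∈ A) (hy : y ∈ A)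
    (heq : (W.map A.subtype).toAffine.Equation x y) :
    (W.map (IsLocalRing.residue A)).toAffine.Nonsingular
        (IsLocalRing.residue A ⟨x, hx⟩) (IsLocalRing.residue A ⟨y, hy⟩) ↔
      NonsingularRed A (W.map A.subtype) x y := by
  have heqA : W.toAffine.Equation (⟨x, hx⟩ : A) ⟨y, hy⟩ :=
    (Affine.map_equation (W := W) (f := A.subtype) Subtype.val_injective ⟨x, hx⟩ ⟨y, hy⟩).1 heq
  have heqk := Affine.Equation.map (IsLocalRing.residue A) heqA
  rw [Affine.nonsingular_iff']
  unfold NonsingularRed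
  simp only [heqk, true_and, WeierstrassCurve.map_a₁, WeierstrassCurve.map_a₂,
    WeierstrassCurve.map_a₃, WeierstrassCurve.map_a₄]
  have eX : (A.subtype W.a₁ * y - (3 * x ^ 2 + 2 * A.subtype W.a₂ * x + A.subtype W.a₄) : L) =
      ((W.a₁ * ⟨y, hy⟩ - (3 * (⟨x, hx⟩ : A) ^ 2 + 2 * W.a₂ * ⟨x, hx⟩ + W.a₄) : A) : L) := by
    push_cast; rfl
  have eY : (2 * y + A.subtype W.a₁ * x + A.subtype W.a₃ : L) =
      ((2 * (⟨y, hy⟩ : A) + W.a₁ * ⟨x, hx⟩ + W.a₃ : A) : L) := by
    push_cast; rfl
  rw [eX, eY, coe_mem_nonunits_iff, coe_mem_nonunits_iff]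
  simp only [map_sub, map_add, map_mul, map_pow, map_ofNat, ne_eq]

end Residue

section Frozen

/-- **The frozen predicate at field level.** -/
theorem inZeroComponentAt_iff (W : WeierstrassCurve ℤ)
    (A : ValuationSubring (AlgebraicClosure ℚ))
    (P : ((W.map (Int.castRingHom ℚ))⁄(AlgebraicClosure ℚ)).Point) :
    W.InZeroComponentAt A P ↔
      P = 0 ∨ ∃ (x y : AlgebraicClosure ℚ)
        (h : ((W.map (Int.castRingHom ℚ))⁄(AlgebraicClosure ℚ)).toAffine.Nonsingular x y),
        P = .some x y h ∧ GoodAt A ((W.map (Int.castRingHom ℚ))⁄(AlgebraicClosure ℚ)) x y := by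
  have e1 : (W.map (Int.castRingHom A)).map A.subtype =
      (W.map (Int.castRingHom ℚ))⁄(AlgebraicClosure ℚ) := by
    show (W.map (Int.castRingHom A)).map A.subtype =
      (W.map (Int.castRingHom ℚ)).map (algebraMap ℚ (AlgebraicClosure ℚ))
    rw [WeierstrassCurve.map_map, WeierstrassCurve.map_map]
    congr 1
  have e2 : (W.map (Int.castRingHom A)).map (IsLocalRing.residue A) =
      W.map (Int.castRingHom (IsLocalRing.ResidueField A)) := by
    rw [WeierstrassCurve.map_map]
    congr 1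
  unfold WeierstrassCurve.InZeroComponentAt GoodAt
  refine or_congr Iff.rfl ?_
  refine exists_congr fun x => exists_congr fun y => exists_congr fun h => and_congr Iff.rfl ?_
  refine or_congr Iff.rfl ?_
  have heq : ((W.map (Int.castRingHom A)).map A.subtype).toAffine.Equation x y := by
    rw [e1]; exact h.1
  constructor
  · rintro ⟨hx, hy, hns⟩
    refine ⟨hx, hy, ?_⟩
    rw [← e2, nonsingular_residue_iff A _ hx hy heq, e1] at hns
    exact hns
  · rintro ⟨hx, hy, hns⟩
    refine ⟨hx, hy, ?_⟩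
    rw [← e2, nonsingular_residue_iff A _ hx hy heq, e1]
    exact hns

end Frozen

/-! ### Valuation subrings of `ℚ` -/

section Rat

/-- In a valuation subring (of any field) in which `ℓ` is a non-unit, the integers prime to `ℓ`
are units. -/
theorem intCast_notMem_nonunits {L : Type*} [Field L] {V : ValuationSubring L} {ℓ : ℕ}
    (hℓ : ℓ.Prime) (hV : (ℓ : L) ∈ V.nonunits) {n : ℤ} (hn : ¬ (ℓ : ℤ) ∣ n) :
    (n : L) ∉ V.nonunits := by
  intro hmem
  have hcop : IsCoprime (ℓ : ℤ) n :=
    (Nat.prime_iff_prime_int.1 hℓ).irreducible.coprime_iff_not_dvd.2 hn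
  obtain ⟨a, b, hab⟩ := hcop
  have h1 : (1 : L) = (a : L) * (ℓ : L) + (b : L) * (n : L) := by
    have := congrArg (Int.cast : ℤ → L) hab
    push_cast at this
    exact this.symm
  have : (1 : L) ∈ V.nonunits := by
    rw [h1]
    exact nu_add V (nu_mul_right V (intCast_mem V a) hV) (nu_mul_right V (intCast_mem V b) hmem)
  exact one_notMem_nonunits this

theorem mem_valuationSubring_rat_iff {V : ValuationSubring ℚ} {ℓ : ℕ} (hℓ : ℓ.Prime)
    (hV : (ℓ : ℚ) ∈ V.nonunits) (x : ℚ) : x ∈ V ↔ ¬ ℓ ∣ x.den := by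
  have hx : x = (x.num : ℚ) / (x.den : ℚ) := (Rat.num_div_den x).symm
  have hden0 : (x.den : ℚ) ≠ 0 := Nat.cast_ne_zero.2 x.den_ne_zero
  constructor
  · intro hxV hdvd
    -- then `ℓ ∤ num`, so `num` is a unit and `1/den = x/num ∈ V`, but `den ∈ 𝔪`
    have hnum : ¬ (ℓ : ℤ) ∣ x.num := by
      intro hnum
      have hcop := x.reduced
      have h1 : ℓ ∣ x.num.natAbs := Int.natCast_dvd.1 hnum
      have := Nat.dvd_gcd h1 hdvd
      rw [hcop] at this
      exact hℓ.one_lt.ne' (Nat.dvd_one.1 this)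
    have hnumu : (x.num : ℚ) ∉ V.nonunits := intCast_notMem_nonunits hℓ hV hnum
    have hnum0 : (x.num : ℚ) ≠ 0 := by
      intro h0
      exact hnumu (h0 ▸ nu_zero V)
    have hnuminv : (x.num : ℚ)⁻¹ ∈ V := by
      by_contra hcon
      exact hnumu ((ValuationSubring.mem_nonunits_iff_or V).2 (Or.inr hcon))
    have hdeninv : (x.den : ℚ)⁻¹ ∈ V := by
      have : (x.den : ℚ)⁻¹ = x * (x.num : ℚ)⁻¹ := by
        field_simp
        rw [mul_comm]; exact (Rat.mul_den_eq_num x).symm
      rw [this]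
      exact mul_mem hxV hnuminv
    have hdenm : (x.den : ℚ) ∈ V.nonunits := by
      obtain ⟨m, hm⟩ := hdvd
      rw [hm]; push_cast
      exact nu_mul_left V hV (natCast_mem V m)
    rw [ValuationSubring.mem_nonunits_iff_or] at hdenm
    exact hdenm.elim hden0 (fun h => h hdeninv)
  · intro hdvd
    have hdenu : ((x.den : ℤ) : ℚ) ∉ V.nonunits :=
      intCast_notMem_nonunits hℓ hV (by exact_mod_cast hdvd)
    have hdeninv : (x.den : ℚ)⁻¹ ∈ V := by
      by_contra hcon
      exact hdenu (by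
        push_cast
        exact (ValuationSubring.mem_nonunits_iff_or V).2 (Or.inr hcon))
    rw [hx, div_eq_mul_inv]
    exact mul_mem (intCast_mem V _) hdeninv

/-- A valuation subring of `ℚ` in which `ℓ` is a non-unit is `ℤ_(ℓ)`. -/
theorem valuationSubring_rat_ext {V₁ V₂ : ValuationSubring ℚ} {ℓ : ℕ} (hℓ : ℓ.Prime)
    (h₁ : (ℓ : ℚ) ∈ V₁.nonunits) (h₂ : (ℓ : ℚ) ∈ V₂.nonunits) : V₁ = V₂ := by
  ext x
  rw [mem_valuationSubring_rat_iff hℓ h₁, mem_valuationSubring_rat_iff hℓ h₂]

/-- **Field independence.** For a curve and a point defined over `ℚ`, the zero-component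
predicate is the same in any two valued fields in which `ℓ` is a non-unit. -/
theorem goodAt_rat_iff {L₁ L₂ : Type*} [Field L₁] [Field L₂] (i₁ : ℚ →+* L₁) (i₂ : ℚ →+* L₂)
    (A₁ : ValuationSubring L₁) (A₂ : ValuationSubring L₂) {ℓ : ℕ} (hℓ : ℓ.Prime)
    (h₁ : (ℓ : L₁) ∈ A₁.nonunits) (h₂ : (ℓ : L₂) ∈ A₂.nonunits)
    (W : WeierstrassCurve ℚ) (x y : ℚ) :
    GoodAt A₁ (W.map i₁) (i₁ x) (i₁ y) ↔ GoodAt A₂ (W.map i₂) (i₂ x) (i₂ y) := by
  rw [goodAt_map_iff, goodAt_map_iff]
  have e : A₁.comap i₁ = A₂.comap i₂ := by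
    refine valuationSubring_rat_ext hℓ ?_ ?_
    · rw [mem_nonunits_comap_iff, map_natCast]; exact h₁
    · rw [mem_nonunits_comap_iff, map_natCast]; exact h₂
  rw [e]

end Rat

end Fermat.Agent.GZ.Tate.T4
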