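import Mathlib
import Fermat.Prelude.Def_EllipticCurve_ZeroComponentAt
import Fermat.Prelude.Def_FLTPrelim_Ramification
import Fermat.Agent.GZ.Tate.T4.Ball
import Fermat.Agent.GZ.Tate.T4.Bridge

/-!
# GATE-Z / [MOD-beta] (T4): zero component ⟺ unit Tate parameter

Assembly of `Series`, `Model`, `Ball`, `Bridge`:

* `exists_rat_coords_of_fixed` : a `G_ℚ`-fixed point of `W(ℚ̄)` is `0` or has coordinates in `ℚ`.
* `inZeroComponentAt_iff_goodAt` : for a rational point, the frozen `W.InZeroComponentAt A _`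
  (`A` over `ℓ`) ⟺ `GoodAt (unitBall K) W_K (x : K) (y : K)` in ANY ultrametric normed field `K`
  with `‖(ℓ : K)‖ < 1` (e.g. `K = ℂ_[ℓ]`): no embedding `ℚ̄ → K` is involved.
* `inZeroComponentAt_iff_norm_eq_one` : if moreover `C • W_K = tateCurve q` and
  `(x, y) = C (X q u, Y q u)` with `u` in the fundamental annulus, then
  `W.InZeroComponentAt A Q ↔ ‖u‖ = 1`.
-/

set_option autoImplicit false
set_option linter.unusedSectionVars false

namespace Fermat.Agent.GZ.Tate.T4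

open WeierstrassCurve
open scoped WeierstrassCurve.Affine
open Fermat.Agent.S05 Fermat.Agent.S05.SameRed

section Rational

/-- A point of `W(ℚ̄)` fixed by `Gal(ℚ̄/ℚ)` is `0` or has rational coordinates. -/
theorem exists_rat_coords_of_fixed (W : WeierstrassCurve ℤ)
    (Q : ((W.map (Int.castRingHom ℚ))⁄(AlgebraicClosure ℚ)).Point)
    (hQfix : ∀ σ : AlgebraicClosure ℚ ≃ₐ[ℚ] AlgebraicClosure ℚ, σ • Q = Q) :
    Q = 0 ∨ ∃ (x y : ℚ)
      (h : ((W.map (Int.castRingHom ℚ))⁄(AlgebraicClosure ℚ)).toAffine.Nonsingular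
        (algebraMap ℚ (AlgebraicClosure ℚ) x) (algebraMap ℚ (AlgebraicClosure ℚ) y)),
      Q = .some _ _ h := by
  have : Algebra.IsAlgebraic ℚ (AlgebraicClosure ℚ) := AlgebraicClosure.isAlgebraic ℚ
  have : IsAlgClosure ℚ (AlgebraicClosure ℚ) := ⟨inferInstance, inferInstance⟩
  have hGal : IsGalois ℚ (AlgebraicClosure ℚ) := IsAlgClosure.isGalois ℚ _
  rcases Q with _ | ⟨x, y, h⟩
  · exact Or.inl rfl
  · right
    have hx : ∀ σ : AlgebraicClosure ℚ ≃ₐ[ℚ] AlgebraicClosure ℚ, σ x = x := by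
      intro σ
      have := hQfix σ
      rw [WeierstrassCurve.Affine.Point.algEquiv_smul_def] at this
      simp only [WeierstrassCurve.Affine.Point.map_some] at this
      injection this with h1 h2
    have hy : ∀ σ : AlgebraicClosure ℚ ≃ₐ[ℚ] AlgebraicClosure ℚ, σ y = y := by
      intro σ
      have := hQfix σ
      rw [WeierstrassCurve.Affine.Point.algEquiv_smul_def] at this
      simp only [WeierstrassCurve.Affine.Point.map_some] at this
      injection this with h1 h2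
    obtain ⟨x₀, rfl⟩ := (InfiniteGalois.mem_range_algebraMap_iff_fixed (k := ℚ) x).2 hx
    obtain ⟨y₀, rfl⟩ := (InfiniteGalois.mem_range_algebraMap_iff_fixed (k := ℚ) y).2 hy
    exact ⟨x₀, y₀, h, rfl⟩

end Rational

section Main

variable {K : Type*} [NormedField K] [IsUltrametricDist K]

theorem map_map_intCast_rat (W : WeierstrassCurve ℤ) {L : Type*} [Field L] (i : ℚ →+* L) :
    (W.map (Int.castRingHom ℚ)).map i = W.map (Int.castRingHom L) := by
  rw [WeierstrassCurve.map_map,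
    show i.comp (Int.castRingHom ℚ) = Int.castRingHom L from RingHom.ext_int _ _]

theorem integralCoeffs_map_int (W : WeierstrassCurve ℤ) {L : Type*} [Field L]
    (B : ValuationSubring L) : IntegralCoeffs B (W.map (Int.castRingHom L)) :=
  ⟨intCast_mem B _, intCast_mem B _, intCast_mem B _, intCast_mem B _, intCast_mem B _⟩

/-- **Field independence of the frozen predicate.** For a rational point `(x, y)` of `W`, and `A`
over `ℓ`, the frozen `InZeroComponentAt A` can be tested in any ultrametric normed field `K` in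
which `‖ℓ‖ < 1`, through the canonical map `ℚ → K`. -/
theorem inZeroComponentAt_iff_goodAt (W : WeierstrassCurve ℤ) {ℓ : ℕ} (hℓ : ℓ.Prime)
    (A : ValuationSubring (AlgebraicClosure ℚ)) (hA : A.LiesOverPrime ℓ)
    (i : ℚ →+* K) (hℓK : ‖(ℓ : K)‖ < 1) (x y : ℚ)
    (h : ((W.map (Int.castRingHom ℚ))⁄(AlgebraicClosure ℚ)).toAffine.Nonsingular
      (algebraMap ℚ (AlgebraicClosure ℚ) x) (algebraMap ℚ (AlgebraicClosure ℚ) y)) :
    W.InZeroComponentAt A (.some _ _ h) ↔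
      GoodAt (unitBall K) (W.map (Int.castRingHom K)) (i x) (i y) := by
  rw [inZeroComponentAt_iff]
  have hK : (ℓ : K) ∈ (unitBall K).nonunits := mem_nonunits_unitBall.2 hℓK
  have key : GoodAt A ((W.map (Int.castRingHom ℚ))⁄(AlgebraicClosure ℚ))
      (algebraMap ℚ (AlgebraicClosure ℚ) x) (algebraMap ℚ (AlgebraicClosure ℚ) y) ↔
      GoodAt (unitBall K) (W.map (Int.castRingHom K)) (i x) (i y) := by
    have := goodAt_rat_iff (algebraMap ℚ (AlgebraicClosure ℚ)) i A (unitBall K) hℓ hA hK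
      (W.map (Int.castRingHom ℚ)) x y
    rw [map_map_intCast_rat W i] at this
    exact this
  rw [← key]
  constructor
  · rintro (h0 | ⟨x', y', h', e, hg⟩)
    · exact absurd h0 (by simp)
    · injection e with e1 e2
      subst e1 e2
      exact hg
  · intro hg
    exact Or.inr ⟨_, _, h, rfl, hg⟩

/-- **(T4) MAIN.** `W` over `ℤ` with `ℓ ∤ c₄`; `K` ultrametric with `‖ℓ‖ < 1`; `q ≠ 0`, `‖q‖ < 1`;
`C • W_K = tateCurve q`; the rational point `(x, y)` of `W` corresponds under `C` to the point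
`P(u) = (X q u, Y q u)` of the Tate curve with `u` in the fundamental annulus `‖q‖ < ‖u‖ ≤ 1`,
`u ≠ 1`.  Then `(x, y)` is in the zero component at `A | ℓ` iff `‖u‖ = 1`. -/
theorem inZeroComponentAt_iff_norm_eq_one (W : WeierstrassCurve ℤ) {ℓ : ℕ} (hℓ : ℓ.Prime)
    (hc₄ : ¬ (ℓ : ℤ) ∣ W.c₄)
    (A : ValuationSubring (AlgebraicClosure ℚ)) (hA : A.LiesOverPrime ℓ)
    (i : ℚ →+* K) (hℓK : ‖(ℓ : K)‖ < 1) (x y : ℚ)
    (h : ((W.map (Int.castRingHom ℚ))⁄(AlgebraicClosure ℚ)).toAffine.Nonsingular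
      (algebraMap ℚ (AlgebraicClosure ℚ) x) (algebraMap ℚ (AlgebraicClosure ℚ) y))
    {q u : K} (hq0 : q ≠ 0) (hq1 : ‖q‖ < 1)
    (C : VariableChange K) (hC : C • (W.map (Int.castRingHom K)) = tateCurve q)
    (hx : i x = vcX C (X q u)) (hy : i y = vcY C (X q u) (Y q u))
    (hu0 : ‖q‖ < ‖u‖) (hu1 : ‖u‖ ≤ 1) (hne : u ≠ 1)
    (hsX : Summable fun n : ℤ => xTerm (q ^ n * u))
    (hsY : Summable fun n : ℤ => yTerm (q ^ n * u)) :
    W.InZeroComponentAt A (.some _ _ h) ↔ ‖u‖ = 1 := by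
  rw [inZeroComponentAt_iff_goodAt W hℓ A hA i hℓK x y h, hx, hy]
  have hK : (ℓ : K) ∈ (unitBall K).nonunits := mem_nonunits_unitBall.2 hℓK
  have hW : IntegralCoeffs (unitBall K) (W.map (Int.castRingHom K)) :=
    integralCoeffs_map_int W _
  have hW' : IntegralCoeffs (unitBall K) (C • (W.map (Int.castRingHom K))) := by
    rw [hC]; exact integralCoeffs_tateCurve hq1
  have hc : (W.map (Int.castRingHom K)).c₄ ∉ (unitBall K).nonunits := by
    rw [WeierstrassCurve.map_c₄]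
    exact intCast_notMem_nonunits hℓ hK hc₄
  have hc' : (C • (W.map (Int.castRingHom K))).c₄ ∉ (unitBall K).nonunits := by
    rw [hC]; exact tateCurve_c₄_notMem hq1
  have hCint : IntegralChange (unitBall K) C := integralChange_of_c₄ hW hW' hc hc'
  rw [← goodAt_smul_iff hCint hW, hC]
  exact goodAt_tate_iff hq0 hq1 hu0 hu1 hne hsX hsY

end Main

/-! ### The instance `K = ℂ_[ℓ]` -/

section PadicComplex

variable (ℓ : ℕ) [hℓ : Fact ℓ.Prime]

theorem norm_natCast_self_padicComplex : ‖((ℓ : ℕ) : ℂ_[ℓ])‖ < 1 := by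
  rw [← map_natCast (algebraMap ℚ_[ℓ] ℂ_[ℓ]) ℓ, norm_algebraMap', Padic.norm_p]
  exact inv_lt_one_of_one_lt₀ (by exact_mod_cast hℓ.1.one_lt)

/-- **(T4) at `K = ℂ_[ℓ]`.** -/
theorem inZeroComponentAt_iff_norm_eq_one_padicComplex (W : WeierstrassCurve ℤ)
    (hc₄ : ¬ (ℓ : ℤ) ∣ W.c₄)
    (A : ValuationSubring (AlgebraicClosure ℚ)) (hA : A.LiesOverPrime ℓ) (x y : ℚ)
    (h : ((W.map (Int.castRingHom ℚ))⁄(AlgebraicClosure ℚ)).toAffine.Nonsingular
      (algebraMap ℚ (AlgebraicClosure ℚ) x) (algebraMap ℚ (AlgebraicClosure ℚ) y))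
    {q u : ℂ_[ℓ]} (hq0 : q ≠ 0) (hq1 : ‖q‖ < 1)
    (C : VariableChange ℂ_[ℓ]) (hC : C • (W.map (Int.castRingHom ℂ_[ℓ])) = tateCurve q)
    (hx : algebraMap ℚ ℂ_[ℓ] x = vcX C (X q u))
    (hy : algebraMap ℚ ℂ_[ℓ] y = vcY C (X q u) (Y q u))
    (hu0 : ‖q‖ < ‖u‖) (hu1 : ‖u‖ ≤ 1) (hne : u ≠ 1)
    (hsX : Summable fun n : ℤ => xTerm (q ^ n * u))
    (hsY : Summable fun n : ℤ => yTerm (q ^ n * u)) :
    W.InZeroComponentAt A (.some _ _ h) ↔ ‖u‖ = 1 :=
  inZeroComponentAt_iff_norm_eq_one W hℓ.1 hc₄ A hA (algebraMap ℚ ℂ_[ℓ])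
    (norm_natCast_self_padicComplex ℓ) x y h hq0 hq1 C hC hx hy hu0 hu1 hne hsX hsY

end PadicComplex

end Fermat.Agent.GZ.Tate.T4
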