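import Fermat.Agent.GZ.Tate.Conv
import Fermat.Agent.GZ.Tate.T4.Main

/-!
# GATE-Z / [MOD-beta] (T4), final form: summability discharged, no normalisation of `u`

* `exists_zpow_mul_mem_annulus` : every `u ≠ 0` has a `q^ℤ`-translate in `‖q‖ < ‖·‖ ≤ 1`.
* `goodAt_tate_iff_exists_zpow` : for ANY admissible `u`,
  `GoodAt (unitBall K) (tateCurve q) (X q u) (Y q u) ↔ ∃ n : ℤ, ‖q ^ n * u‖ = 1`.
* `exists_zpow_norm_eq_one_iff_dvd` : if `u ^ p = q ^ m` this happens iff `p ∣ m`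
  (i.e. iff `u ∈ μ_p · q^ℤ`).
* `inZeroComponentAt_iff_exists_zpow`, `inZeroComponentAt_iff_dvd` : the frozen predicate, with
  all analytic binders discharged (`K` complete).
-/

set_option autoImplicit false
set_option linter.unusedSectionVars false

namespace Fermat.Agent.GZ.Tate.T4

open WeierstrassCurve
open scoped WeierstrassCurve.Affine
open Fermat.Agent.S05 Fermat.Agent.S05.SameRed

section Annulus

variable {K : Type*} [NormedField K] [IsUltrametricDist K] {q u : K}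

/-- Normalisation into the fundamental annulus. -/
theorem exists_zpow_mul_mem_annulus (hq0 : q ≠ 0) (hq1 : ‖q‖ < 1) (hu : u ≠ 0) :
    ∃ n : ℤ, ‖q‖ < ‖q ^ n * u‖ ∧ ‖q ^ n * u‖ ≤ 1 := by
  have hr : 0 < ‖q‖ := norm_pos_iff.2 hq0
  have ha : 0 < ‖u‖ := norm_pos_iff.2 hu
  have hy : 1 < ‖q‖⁻¹ := (one_lt_inv₀ hr).2 hq1
  obtain ⟨m, hm1, hm2⟩ := exists_mem_Ioc_zpow ha hy
  refine ⟨m + 1, ?_, ?_⟩
  · rw [norm_zpow_mul]
    have h1 : ‖q‖ ^ (m + 1) * ‖q‖⁻¹ ^ m = ‖q‖ := by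
      rw [inv_zpow, zpow_add₀ hr.ne', zpow_one]
      field_simp
    calc ‖q‖ = ‖q‖ ^ (m + 1) * ‖q‖⁻¹ ^ m := h1.symm
      _ < ‖q‖ ^ (m + 1) * ‖u‖ := mul_lt_mul_of_pos_left hm1 (zpow_pos hr _)
  · rw [norm_zpow_mul]
    have h2 : ‖q‖ ^ (m + 1) * ‖q‖⁻¹ ^ (m + 1) = 1 := by
      rw [inv_zpow]
      exact mul_inv_cancel₀ (zpow_pos hr _).ne'
    calc ‖q‖ ^ (m + 1) * ‖u‖ ≤ ‖q‖ ^ (m + 1) * ‖q‖⁻¹ ^ (m + 1) :=
          mul_le_mul_of_nonneg_left hm2 (zpow_pos hr _).le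
      _ = 1 := h2

/-- `‖q‖ ^ k ∈ (‖q‖, 1]` forces `k = 0`. -/
theorem eq_zero_of_zpow_mem_Ioc (hq0 : q ≠ 0) (hq1 : ‖q‖ < 1) {k : ℤ}
    (h1 : ‖q‖ < ‖q‖ ^ k) (h2 : ‖q‖ ^ k ≤ 1) : k = 0 := by
  have hr : 0 < ‖q‖ := norm_pos_iff.2 hq0
  rcases lt_trichotomy k 0 with hk | hk | hk
  · exfalso
    have : 1 < ‖q‖ ^ k := by
      have h := one_lt_zpow_mul_of_neg hr hq1 (r := 1) hq1 hk
      rwa [mul_one] at h
    exact not_le.2 this h2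
  · exact hk
  · exfalso
    exact not_le.2 h1 (norm_zpow_le_of_pos hr hq1 hk)

theorem zpow_eq_one_iff_of_norm (hq0 : q ≠ 0) (hq1 : ‖q‖ < 1) {k : ℤ} :
    ‖q‖ ^ k = 1 ↔ k = 0 := by
  constructor
  · intro h
    exact eq_zero_of_zpow_mem_Ioc hq0 hq1 (h ▸ hq1) h.le
  · rintro rfl
    exact zpow_zero _

/-- If two `q^ℤ`-translates of `u` are respectively in the fundamental annulus and on the unit
circle, the first one is on the unit circle. -/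
theorem norm_eq_one_of_annulus_of_exists (hq0 : q ≠ 0) (hq1 : ‖q‖ < 1) {n₀ n : ℤ}
    (h1 : ‖q‖ < ‖q ^ n₀ * u‖) (h2 : ‖q ^ n₀ * u‖ ≤ 1) (hn : ‖q ^ n * u‖ = 1) :
    ‖q ^ n₀ * u‖ = 1 := by
  have hr : 0 < ‖q‖ := norm_pos_iff.2 hq0
  have e : ‖q ^ n₀ * u‖ = ‖q‖ ^ (n₀ - n) := by
    have : q ^ n₀ * u = q ^ (n₀ - n) * (q ^ n * u) := by
      rw [← mul_assoc, ← zpow_add₀ hq0, sub_add_cancel]
    rw [this, norm_mul, hn, mul_one, norm_zpow]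
  rw [e] at h1 h2 ⊢
  rw [eq_zero_of_zpow_mem_Ioc hq0 hq1 h1 h2, zpow_zero]

/-- For `u ^ p = q ^ m`: some `q^ℤ`-translate of `u` is a unit iff `p ∣ m`. -/
theorem exists_zpow_norm_eq_one_iff_dvd (hq0 : q ≠ 0) (hq1 : ‖q‖ < 1) {p : ℕ} (hp : p ≠ 0)
    {m : ℤ} (hu : u ^ p = q ^ m) : (∃ n : ℤ, ‖q ^ n * u‖ = 1) ↔ (p : ℤ) ∣ m := by
  have hr : 0 < ‖q‖ := norm_pos_iff.2 hq0
  constructor
  · rintro ⟨n, hn⟩
    have h1 : ‖q‖ ^ (n * p + m) = 1 := by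
      have : ‖q ^ n * u‖ ^ p = 1 := by rw [hn, one_pow]
      rw [norm_mul, mul_pow, ← norm_pow u, hu, norm_zpow, norm_zpow, ← zpow_natCast,
        ← zpow_mul, ← zpow_add₀ hr.ne'] at this
      exact this
    have h2 := (zpow_eq_one_iff_of_norm hq0 hq1).1 h1
    exact ⟨-n, by linarith⟩
  · rintro ⟨k, rfl⟩
    refine ⟨-k, ?_⟩
    apply norm_eq_one_of_pow_eq_one hp
    rw [mul_pow, hu, ← zpow_natCast, ← zpow_mul, ← zpow_add₀ hq0]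
    have : -k * (p : ℤ) + (p : ℤ) * k = 0 := by ring
    rw [this, zpow_zero]

end Annulus

section Complete

variable {K : Type*} [NormedField K] [IsUltrametricDist K] [CompleteSpace K] {q u : K}

/-- **(T4), Tate side, final form.** -/
theorem goodAt_tate_iff_exists_zpow (hq0 : q ≠ 0) (hq1 : ‖q‖ < 1) (hadm : IsAdm q u) :
    GoodAt (unitBall K) (tateCurve q) (X q u) (Y q u) ↔ ∃ n : ℤ, ‖q ^ n * u‖ = 1 := by
  obtain ⟨n₀, h1, h2⟩ := exists_zpow_mul_mem_annulus hq0 hq1 hadm.1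
  have hne0 : q ^ n₀ * u ≠ 0 := mul_ne_zero (zpow_ne_zero _ hq0) hadm.1
  have key := goodAt_tate_iff hq0 hq1 h1 h2 (hadm.2 n₀)
    (summable_xTerm_zpow hq0 hq1 hne0) (summable_yTerm_zpow hq0 hq1 hne0)
  rw [X_zpow_mul hq0, Y_zpow_mul hq0] at key
  rw [key]
  exact ⟨fun h => ⟨n₀, h⟩, fun ⟨n, hn⟩ => norm_eq_one_of_annulus_of_exists hq0 hq1 h1 h2 hn⟩

/-- **(T4) MAIN, final form**: all analytic binders discharged, `u` any admissible parameter. -/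
theorem inZeroComponentAt_iff_exists_zpow (W : WeierstrassCurve ℤ) {ℓ : ℕ} (hℓ : ℓ.Prime)
    (hc₄ : ¬ (ℓ : ℤ) ∣ W.c₄)
    (A : ValuationSubring (AlgebraicClosure ℚ)) (hA : A.LiesOverPrime ℓ)
    (i : ℚ →+* K) (hℓK : ‖(ℓ : K)‖ < 1) (x y : ℚ)
    (h : ((W.map (Int.castRingHom ℚ))⁄(AlgebraicClosure ℚ)).toAffine.Nonsingular
      (algebraMap ℚ (AlgebraicClosure ℚ) x) (algebraMap ℚ (AlgebraicClosure ℚ) y))
    (hq0 : q ≠ 0) (hq1 : ‖q‖ < 1)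
    (C : VariableChange K) (hC : C • (W.map (Int.castRingHom K)) = tateCurve q)
    (hadm : IsAdm q u)
    (hx : i x = vcX C (X q u)) (hy : i y = vcY C (X q u) (Y q u)) :
    W.InZeroComponentAt A (.some _ _ h) ↔ ∃ n : ℤ, ‖q ^ n * u‖ = 1 := by
  obtain ⟨n₀, h1, h2⟩ := exists_zpow_mul_mem_annulus hq0 hq1 hadm.1
  have hne0 : q ^ n₀ * u ≠ 0 := mul_ne_zero (zpow_ne_zero _ hq0) hadm.1
  have key := inZeroComponentAt_iff_norm_eq_one W hℓ hc₄ A hA i hℓK x y h hq0 hq1 C hC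
    (u := q ^ n₀ * u) (by rw [X_zpow_mul hq0]; exact hx)
    (by rw [X_zpow_mul hq0, Y_zpow_mul hq0]; exact hy) h1 h2 (hadm.2 n₀)
    (summable_xTerm_zpow hq0 hq1 hne0) (summable_yTerm_zpow hq0 hq1 hne0)
  rw [key]
  exact ⟨fun h => ⟨n₀, h⟩, fun ⟨n, hn⟩ => norm_eq_one_of_annulus_of_exists hq0 hq1 h1 h2 hn⟩

/-- **(T4) for torsion parameters**: if `u ^ p = q ^ m` then the point is in the zero component
iff `p ∣ m`, i.e. iff `u ∈ μ_p · q^ℤ`, i.e. iff `⟨Q⟩ = P(μ_p)`. -/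
theorem inZeroComponentAt_iff_dvd (W : WeierstrassCurve ℤ) {ℓ : ℕ} (hℓ : ℓ.Prime)
    (hc₄ : ¬ (ℓ : ℤ) ∣ W.c₄)
    (A : ValuationSubring (AlgebraicClosure ℚ)) (hA : A.LiesOverPrime ℓ)
    (i : ℚ →+* K) (hℓK : ‖(ℓ : K)‖ < 1) (x y : ℚ)
    (h : ((W.map (Int.castRingHom ℚ))⁄(AlgebraicClosure ℚ)).toAffine.Nonsingular
      (algebraMap ℚ (AlgebraicClosure ℚ) x) (algebraMap ℚ (AlgebraicClosure ℚ) y))
    (hq0 : q ≠ 0) (hq1 : ‖q‖ < 1)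
    (C : VariableChange K) (hC : C • (W.map (Int.castRingHom K)) = tateCurve q)
    (hadm : IsAdm q u)
    (hx : i x = vcX C (X q u)) (hy : i y = vcY C (X q u) (Y q u))
    {p : ℕ} (hp : p ≠ 0) {m : ℤ} (hu : u ^ p = q ^ m) :
    W.InZeroComponentAt A (.some _ _ h) ↔ (p : ℤ) ∣ m := by
  rw [inZeroComponentAt_iff_exists_zpow W hℓ hc₄ A hA i hℓK x y h hq0 hq1 C hC hadm hx hy,
    exists_zpow_norm_eq_one_iff_dvd hq0 hq1 hp hu]

end Complete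

end Fermat.Agent.GZ.Tate.T4
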