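import Fermat.Agent.GZ.Tate.T0.Bridge
import Fermat.Agent.GZ.Tate.T3.TatePlug
import Fermat.Agent.GZ.Tate.T4.Final

/-!
# GATE-Z / [MOD-beta] (T4) PLUG: Tate uniformisation of `W_K` and the T3 → T4 seam

`W : WeierstrassCurve ℤ`, `K` a complete ultrametric normed field of characteristic `0` with
`‖ℓ‖ < 1`, `ℓ ∣ Δ(W)`, `ℓ ∤ c₄(W)`.

* `TateUnif W K` : a Tate parameter `q` (`q ≠ 0`, `‖q‖ < 1`) and a variable change `C` with
  `C • W_K = tateCurve q`;  `TateUnif.toTate : W_K(K) ≃+ E_q(K)`.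
* `exists_tateUnif` (`K` algebraically closed): such a uniformisation exists, with
  `j(E_q) = c₄³/Δ` and `‖q‖ = ‖Δ‖`   [T0 `exists_pinned_j_eq` + Mathlib's
  `exists_variableChange_of_j_eq`].
* `ratPointK` : the `K`-point of a rational point; it has the same order.
* `inZeroComponentAt_iff_of_toTate_eq` : if the `K`-point of the rational point `(x, y)`
  corresponds to `tateP q u`, then `W.InZeroComponentAt A (x, y) ↔ ∃ n : ℤ, ‖q ^ n * u‖ = 1`.
* `inZeroComponentAt_iff_caseA` : for a point of prime order `p`, zero component ⟺ case A of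
  helper43's `TatePlug.torsion_dichotomy` (`toTate Q = tateP (ζ ^ j)`, i.e. `⟨Q⟩ = P(μ_p)`).
-/

set_option autoImplicit false
set_option linter.unusedSectionVars false

noncomputable section

namespace Fermat.Agent.GZ.Tate.T4

open WeierstrassCurve
open scoped WeierstrassCurve.Affine
open Fermat.Agent.S05 Fermat.Agent.S05.SameRed
open Fermat.Agent.GZ.Tate.T2.Hom Fermat.Agent.GZ.Tate.T3.TatePlug

universe u

section Norms

variable {K : Type u} [NormedField K] [IsUltrametricDist K]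

theorem norm_intCast_eq_one_of_not_dvd {ℓ : ℕ} (hℓ : ℓ.Prime) (hℓK : ‖(ℓ : K)‖ < 1) {n : ℤ}
    (hn : ¬ (ℓ : ℤ) ∣ n) : ‖(n : K)‖ = 1 := by
  have h1 : (n : K) ∉ (unitBall K).nonunits :=
    intCast_notMem_nonunits hℓ (mem_nonunits_unitBall.2 hℓK) hn
  rw [mem_nonunits_unitBall, not_lt] at h1
  exact le_antisymm (IsUltrametricDist.norm_intCast_le_one K n) h1

theorem norm_intCast_lt_one_of_dvd {ℓ : ℕ} (hℓK : ‖(ℓ : K)‖ < 1) {n : ℤ}
    (hn : (ℓ : ℤ) ∣ n) : ‖(n : K)‖ < 1 := by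
  obtain ⟨m, rfl⟩ := hn
  push_cast
  rw [norm_mul]
  calc ‖(ℓ : K)‖ * ‖(m : K)‖ ≤ ‖(ℓ : K)‖ * 1 :=
        mul_le_mul_of_nonneg_left (IsUltrametricDist.norm_intCast_le_one K m) (norm_nonneg _)
    _ = ‖(ℓ : K)‖ := mul_one _
    _ < 1 := hℓK

end Norms

/-! ### The Tate uniformisation of `W_K` -/

section Unif

variable (W : WeierstrassCurve ℤ) (K : Type u) [NormedField K] [IsUltrametricDist K]

/-- A Tate uniformisation of `W` over `K`: `q` and a variable change `C • W_K = tateCurve q`. -/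
structure TateUnif where
  q : K
  q_ne : q ≠ 0
  norm_q : ‖q‖ < 1
  C : VariableChange K
  hC : C • (W.map (Int.castRingHom K)) = tateCurve q

variable {W K}

/-- The isomorphism on points `W_K(K) ≃+ E_q(K)` of a Tate uniformisation. -/
def TateUnif.toTate [DecidableEq K] (T : TateUnif W K) :
    (W.map (Int.castRingHom K)).toAffine.Point ≃+ (tateCurve T.q).toAffine.Point :=
  (vcPointEquiv (W.map (Int.castRingHom K)) T.C).symm.trans (pointCongr T.hC)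

theorem TateUnif.toTate_symm_some [DecidableEq K] (T : TateUnif W K) {X Y : K}
    (h : (tateCurve T.q).toAffine.Nonsingular X Y) :
    ∃ h', T.toTate.symm (.some X Y h) = .some (vcX T.C X) (vcY T.C X Y) h' := by
  refine ⟨(vc_nonsingular_iff _ T.C X Y).1 (T.hC.symm ▸ h), ?_⟩
  rfl

variable [CompleteSpace K] [IsAlgClosed K] [CharZero K]

/-- **Existence of the Tate uniformisation** at a prime of multiplicative reduction. -/
theorem exists_tateUnif (W : WeierstrassCurve ℤ) (hΔ : W.Δ ≠ 0) {ℓ : ℕ} (hℓ : ℓ.Prime)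
    (hℓK : ‖(ℓ : K)‖ < 1) (hℓΔ : (ℓ : ℤ) ∣ W.Δ) (hc₄ : ¬ (ℓ : ℤ) ∣ W.c₄) :
    ∃ T : TateUnif W K, ‖T.q‖ = ‖((W.Δ : ℤ) : K)‖ ∧
      ∃ _hE : (tateCurve T.q).IsElliptic,
        (tateCurve T.q).j = ((W.c₄ : ℤ) : K) ^ 3 / ((W.Δ : ℤ) : K) := by
  set WK : WeierstrassCurve K := W.map (Int.castRingHom K) with hWK
  have hΔK : WK.Δ = ((W.Δ : ℤ) : K) := by rw [hWK, WeierstrassCurve.map_Δ]; rfl
  have hcK : WK.c₄ = ((W.c₄ : ℤ) : K) := by rw [hWK, WeierstrassCurve.map_c₄]; rfl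
  have hΔ0 : ((W.Δ : ℤ) : K) ≠ 0 := Int.cast_ne_zero.2 hΔ
  have hE : WK.IsElliptic := ⟨by rw [hΔK]; exact hΔ0.isUnit⟩
  have hj : WK.j = ((W.c₄ : ℤ) : K) ^ 3 / ((W.Δ : ℤ) : K) := by
    rw [WeierstrassCurve.j, hcK, div_eq_inv_mul]
    congr 1
    rw [Units.val_inv_eq_inv_val, WeierstrassCurve.coe_Δ', hΔK]
  have hnΔ : ‖((W.Δ : ℤ) : K)‖ < 1 := norm_intCast_lt_one_of_dvd hℓK hℓΔ
  have hnc : ‖((W.c₄ : ℤ) : K)‖ = 1 := norm_intCast_eq_one_of_not_dvd hℓ hℓK hc₄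
  have hΔpos : 0 < ‖((W.Δ : ℤ) : K)‖ := norm_pos_iff.2 hΔ0
  have hnj : ‖((W.c₄ : ℤ) : K) ^ 3 / ((W.Δ : ℤ) : K)‖ = ‖((W.Δ : ℤ) : K)‖⁻¹ := by
    rw [norm_div, norm_pow, hnc, one_pow, one_div]
  have ha : 1 < ‖((W.c₄ : ℤ) : K) ^ 3 / ((W.Δ : ℤ) : K)‖ := by
    rw [hnj]; exact (one_lt_inv₀ hΔpos).2 hnΔ
  obtain ⟨q, hq0, hq1, hqn, hEq, hjq, -⟩ := T0.exists_pinned_j_eq ha
  have := hEq
  obtain ⟨C, hC⟩ := WeierstrassCurve.exists_variableChange_of_j_eq WK (tateCurve q)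
    (by rw [hj, hjq])
  refine ⟨⟨q, hq0, hq1, C, hC⟩, ?_, hEq, hjq⟩
  show ‖q‖ = _
  rw [hqn, hnj, inv_inv]

end Unif

/-! ### Rational points over `K` -/

section RatPoint

variable (W : WeierstrassCurve ℤ) {K : Type u} [Field K] [CharZero K] [DecidableEq K]

/-- `(W_ℚ)⁄F = W_F` for every field `F` of characteristic zero. -/
theorem baseChange_rat_eq (F : Type*) [Field F] [CharZero F] :
    (W.map (Int.castRingHom ℚ))⁄F = W.map (Int.castRingHom F) :=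
  map_map_intCast_rat W (algebraMap ℚ F)

/-- Nonsingularity of a rational point descends from `ℚ̄` to `ℚ`. -/
theorem nonsingular_rat_of_qbar {x y : ℚ}
    (h : ((W.map (Int.castRingHom ℚ))⁄(AlgebraicClosure ℚ)).toAffine.Nonsingular
      (algebraMap ℚ (AlgebraicClosure ℚ) x) (algebraMap ℚ (AlgebraicClosure ℚ) y)) :
    ((W.map (Int.castRingHom ℚ))⁄ℚ).toAffine.Nonsingular x y :=
  (WeierstrassCurve.Affine.baseChange_nonsingular (W.map (Int.castRingHom ℚ))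
    (f := Algebra.ofId ℚ (AlgebraicClosure ℚ)) (Algebra.ofId ℚ (AlgebraicClosure ℚ)).injective
    x y).1 h

/-- The point over `ℚ` with coordinates `(x, y)`. -/
def ratPoint {x y : ℚ}
    (h : ((W.map (Int.castRingHom ℚ))⁄(AlgebraicClosure ℚ)).toAffine.Nonsingular
      (algebraMap ℚ (AlgebraicClosure ℚ) x) (algebraMap ℚ (AlgebraicClosure ℚ) y)) :
    ((W.map (Int.castRingHom ℚ))⁄ℚ).toAffine.Point :=
  .some x y (nonsingular_rat_of_qbar W h)

/-- The `K`-point of the rational point `(x, y)`, as a point of `W_K = W.map (Int.castRingHom K)`. -/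
def ratPointK {x y : ℚ}
    (h : ((W.map (Int.castRingHom ℚ))⁄(AlgebraicClosure ℚ)).toAffine.Nonsingular
      (algebraMap ℚ (AlgebraicClosure ℚ) x) (algebraMap ℚ (AlgebraicClosure ℚ) y)) :
    (W.map (Int.castRingHom K)).toAffine.Point :=
  pointCongr (baseChange_rat_eq W K)
    (WeierstrassCurve.Affine.Point.map (W' := W.map (Int.castRingHom ℚ)) (Algebra.ofId ℚ K)
      (ratPoint W h))

theorem ratPointK_eq_some {x y : ℚ}
    (h : ((W.map (Int.castRingHom ℚ))⁄(AlgebraicClosure ℚ)).toAffine.Nonsingular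
      (algebraMap ℚ (AlgebraicClosure ℚ) x) (algebraMap ℚ (AlgebraicClosure ℚ) y)) :
    ∃ hK, ratPointK (K := K) W h = .some (algebraMap ℚ K x) (algebraMap ℚ K y) hK :=
  ⟨_, rfl⟩

theorem map_ratPoint_qbar {x y : ℚ}
    (h : ((W.map (Int.castRingHom ℚ))⁄(AlgebraicClosure ℚ)).toAffine.Nonsingular
      (algebraMap ℚ (AlgebraicClosure ℚ) x) (algebraMap ℚ (AlgebraicClosure ℚ) y)) :
    WeierstrassCurve.Affine.Point.map (W' := W.map (Int.castRingHom ℚ))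
      (Algebra.ofId ℚ (AlgebraicClosure ℚ)) (ratPoint W h) = .some _ _ h := rfl

/-- The `K`-point of a rational point has the same order as the `ℚ̄`-point. -/
theorem addOrderOf_ratPointK {x y : ℚ}
    (h : ((W.map (Int.castRingHom ℚ))⁄(AlgebraicClosure ℚ)).toAffine.Nonsingular
      (algebraMap ℚ (AlgebraicClosure ℚ) x) (algebraMap ℚ (AlgebraicClosure ℚ) y)) :
    addOrderOf (ratPointK (K := K) W h) =
      addOrderOf (WeierstrassCurve.Affine.Point.some _ _ h :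
        ((W.map (Int.castRingHom ℚ))⁄(AlgebraicClosure ℚ)).Point) := by
  rw [← map_ratPoint_qbar W h]
  rw [addOrderOf_injective _ (WeierstrassCurve.Affine.Point.map_injective
    (W' := W.map (Int.castRingHom ℚ)) (Algebra.ofId ℚ (AlgebraicClosure ℚ))) (ratPoint W h)]
  unfold ratPointK
  rw [AddEquiv.addOrderOf_eq]
  exact addOrderOf_injective _ (WeierstrassCurve.Affine.Point.map_injective
    (W' := W.map (Int.castRingHom ℚ)) (Algebra.ofId ℚ K)) (ratPoint W h)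

end RatPoint

/-! ### The T3 → T4 seam -/

section Seam

variable {K : Type u} [NormedField K] [IsUltrametricDist K] [CompleteSpace K] [CharZero K]
  [DecidableEq K]

/-- **(T4) PLUG, parameter form.**  If the `K`-point of the rational point `(x, y)` corresponds
under a Tate uniformisation to `(X q u, Y q u)` with `u` admissible, then `(x, y)` is in the zero
component at `A | ℓ` iff some `q^ℤ`-translate of `u` is a unit. -/
theorem inZeroComponentAt_iff_of_toTate_eq (W : WeierstrassCurve ℤ) {ℓ : ℕ} (hℓ : ℓ.Prime)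
    (hc₄ : ¬ (ℓ : ℤ) ∣ W.c₄)
    (A : ValuationSubring (AlgebraicClosure ℚ)) (hA : A.LiesOverPrime ℓ)
    (hℓK : ‖(ℓ : K)‖ < 1) {x y : ℚ}
    (h : ((W.map (Int.castRingHom ℚ))⁄(AlgebraicClosure ℚ)).toAffine.Nonsingular
      (algebraMap ℚ (AlgebraicClosure ℚ) x) (algebraMap ℚ (AlgebraicClosure ℚ) y))
    (T : TateUnif W K) {u : K} (hadm : IsAdm T.q u)
    (hns : (tateCurve T.q).toAffine.Nonsingular (X T.q u) (Y T.q u))
    (hQ : T.toTate (ratPointK W h) = .some (X T.q u) (Y T.q u) hns) :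
    W.InZeroComponentAt A (.some _ _ h) ↔ ∃ n : ℤ, ‖T.q ^ n * u‖ = 1 := by
  have hQ' : ratPointK (K := K) W h = T.toTate.symm (.some (X T.q u) (Y T.q u) hns) := by
    rw [← hQ, AddEquiv.symm_apply_apply]
  obtain ⟨hK, e1⟩ := ratPointK_eq_some (K := K) W h
  obtain ⟨h', e2⟩ := T.toTate_symm_some hns
  rw [e1, e2] at hQ'
  injection hQ' with hx hy
  exact inZeroComponentAt_iff_exists_zpow W hℓ hc₄ A hA (algebraMap ℚ K) hℓK x y h T.q_ne
    T.norm_q T.C T.hC hadm hx hy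

variable (q : K)
variable (hns : ∀ u : K, IsAdm q u → (tateCurve q).toAffine.Nonsingular (X q u) (Y q u))

/-- The same with helper43's `tateP`. -/
theorem inZeroComponentAt_iff_of_toTate_eq_tateP (W : WeierstrassCurve ℤ) {ℓ : ℕ} (hℓ : ℓ.Prime)
    (hc₄ : ¬ (ℓ : ℤ) ∣ W.c₄)
    (A : ValuationSubring (AlgebraicClosure ℚ)) (hA : A.LiesOverPrime ℓ)
    (hℓK : ‖(ℓ : K)‖ < 1) {x y : ℚ}
    (h : ((W.map (Int.castRingHom ℚ))⁄(AlgebraicClosure ℚ)).toAffine.Nonsingular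
      (algebraMap ℚ (AlgebraicClosure ℚ) x) (algebraMap ℚ (AlgebraicClosure ℚ) y))
    (T : TateUnif W K)
    (hns : ∀ u : K, IsAdm T.q u → (tateCurve T.q).toAffine.Nonsingular (X T.q u) (Y T.q u))
    {u : Kˣ} (hadm : IsAdm T.q (u : K))
    (hQ : T.toTate (ratPointK W h) = tateP T.q hns u) :
    W.InZeroComponentAt A (.some _ _ h) ↔ ∃ n : ℤ, ‖T.q ^ n * (u : K)‖ = 1 := by
  rw [tateP_of_isAdm T.q hns hadm] at hQ
  exact inZeroComponentAt_iff_of_toTate_eq W hℓ hc₄ A hA hℓK h T hadm (hns u hadm) hQ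

end Seam

/-! ### Zero component ⟺ case A of the torsion dichotomy -/

section Dichotomy

variable {K : Type u} [NormedField K] [IsUltrametricDist K] [CompleteSpace K] [CharZero K]
  [DecidableEq K]

/-- A point corresponding to `tateP (ζ ^ j)`, `ζ` a primitive `p`-th root of unity, `p ∤ j`, is in
the zero component. -/
theorem inZeroComponentAt_of_toTate_eq_root (W : WeierstrassCurve ℤ) {ℓ : ℕ} (hℓ : ℓ.Prime)
    (hc₄ : ¬ (ℓ : ℤ) ∣ W.c₄)
    (A : ValuationSubring (AlgebraicClosure ℚ)) (hA : A.LiesOverPrime ℓ)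
    (hℓK : ‖(ℓ : K)‖ < 1) {x y : ℚ}
    (h : ((W.map (Int.castRingHom ℚ))⁄(AlgebraicClosure ℚ)).toAffine.Nonsingular
      (algebraMap ℚ (AlgebraicClosure ℚ) x) (algebraMap ℚ (AlgebraicClosure ℚ) y))
    (T : TateUnif W K)
    (hns : ∀ u : K, IsAdm T.q u → (tateCurve T.q).toAffine.Nonsingular (X T.q u) (Y T.q u))
    {p : ℕ} (hp0 : p ≠ 0) {ζ : Kˣ} (hζ : IsPrimitiveRoot (ζ : K) p) {j : ℕ} (hj : ¬ p ∣ j)
    (hQ : T.toTate (ratPointK W h) = tateP T.q hns (ζ ^ j)) :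
    W.InZeroComponentAt A (.some _ _ h) := by
  have hval : ((ζ ^ j : Kˣ) : K) = (ζ : K) ^ j := Units.val_pow_eq_pow_val ζ j
  have hnorm : ‖((ζ ^ j : Kˣ) : K)‖ = 1 := by
    rw [hval]
    apply norm_eq_one_of_pow_eq_one hp0
    rw [← pow_mul, mul_comm, pow_mul, hζ.pow_eq_one, one_pow]
  have hne : ((ζ ^ j : Kˣ) : K) ≠ 1 := by
    rw [hval]
    intro h1
    exact hj ((hζ.pow_eq_one_iff_dvd j).1 h1)
  have hadm : IsAdm T.q ((ζ ^ j : Kˣ) : K) := isAdm_of_norm_one T.q_ne T.norm_q hnorm hne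
  refine (inZeroComponentAt_iff_of_toTate_eq_tateP W hℓ hc₄ A hA hℓK h T hns hadm hQ).2 ⟨0, ?_⟩
  rw [zpow_zero, one_mul]; exact hnorm

/-- **(T4) PLUG, final form**: for a rational point of prime order `p`, zero component at `A | ℓ`
⟺ case A of `TatePlug.torsion_dichotomy`, i.e. `⟨Q⟩ = P(μ_p)`. -/
theorem inZeroComponentAt_iff_caseA (W : WeierstrassCurve ℤ) {ℓ : ℕ} (hℓ : ℓ.Prime)
    (hc₄ : ¬ (ℓ : ℤ) ∣ W.c₄)
    (A : ValuationSubring (AlgebraicClosure ℚ)) (hA : A.LiesOverPrime ℓ)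
    (hℓK : ‖(ℓ : K)‖ < 1) {x y : ℚ}
    (h : ((W.map (Int.castRingHom ℚ))⁄(AlgebraicClosure ℚ)).toAffine.Nonsingular
      (algebraMap ℚ (AlgebraicClosure ℚ) x) (algebraMap ℚ (AlgebraicClosure ℚ) y))
    (T : TateUnif W K)
    (hns : ∀ u : K, IsAdm T.q u → (tateCurve T.q).toAffine.Nonsingular (X T.q u) (Y T.q u))
    (hgen : ∀ u v : K, IsAdm T.q u → IsAdm T.q v → IsAdm T.q (u * v) → X T.q u ≠ X T.q v →
      T2.ColRel (X T.q u) (Y T.q u) (X T.q v) (Y T.q v) (X T.q (u * v)) (Y T.q (u * v)) ∧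
        T2.SumRel (X T.q u) (Y T.q u) (X T.q v) (Y T.q v) (X T.q (u * v)))
    (hΔ : (tateCurve T.q).Δ ≠ 0)
    {p : ℕ} [hp : Fact p.Prime] {ζ t₀ : Kˣ} (hζ : IsPrimitiveRoot (ζ : K) p)
    (ht₀ : t₀ ^ p = Units.mk0 T.q T.q_ne)
    (hord : addOrderOf (WeierstrassCurve.Affine.Point.some _ _ h :
      ((W.map (Int.castRingHom ℚ))⁄(AlgebraicClosure ℚ)).Point) = p) :
    W.InZeroComponentAt A (.some _ _ h) ↔
      ∃ j : ℕ, ¬ p ∣ j ∧ T.toTate (ratPointK W h) = tateP T.q hns (ζ ^ j) := by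
  have hp0 : p ≠ 0 := hp.out.ne_zero
  have hordK : addOrderOf (T.toTate (ratPointK W h)) = p := by
    rw [AddEquiv.addOrderOf_eq, addOrderOf_ratPointK, hord]
  have hQp : p • T.toTate (ratPointK W h) = 0 := by
    rw [← hordK]; exact addOrderOf_nsmul_eq_zero _
  have hQ0 : T.toTate (ratPointK W h) ≠ 0 := by
    intro h0
    rw [h0, addOrderOf_zero] at hordK
    exact hp.out.one_lt.ne hordK
  constructor
  · intro hin
    rcases torsion_dichotomy T.q hns hgen T.q_ne T.norm_q hΔ hζ ht₀ hQ0 hQp with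
      ⟨j, hj, hQj, -⟩ | ⟨i, k, hk0, hkp, hQik, hn1, hn2, -⟩
    · exact ⟨j, hj, hQj⟩
    · exfalso
      have hadm : IsAdm T.q ((ζ ^ i * t₀ ^ k : Kˣ) : K) := isAdm_of_norm_lt T.q_ne hn1 hn2
      obtain ⟨n, hn⟩ :=
        (inZeroComponentAt_iff_of_toTate_eq_tateP W hℓ hc₄ A hA hℓK h T hns hadm hQik).1 hin
      have h1 := norm_eq_one_of_annulus_of_exists (u := ((ζ ^ i * t₀ ^ k : Kˣ) : K))
        T.q_ne T.norm_q (n₀ := 0) (n := n)
        (by rw [zpow_zero, one_mul]; exact hn1) (by rw [zpow_zero, one_mul]; exact hn2.le) hn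
      rw [zpow_zero, one_mul] at h1
      exact hn2.ne h1
  · rintro ⟨j, hj, hQj⟩
    exact inZeroComponentAt_of_toTate_eq_root W hℓ hc₄ A hA hℓK h T hns hp0 hζ hj hQj

end Dichotomy

/-! ### The instance `K = ℂ_[ℓ]` -/

section PadicComplex

variable (ℓ : ℕ) [hℓ : Fact ℓ.Prime]

/-- **Tate uniformisation over `ℂ_[ℓ]`** at a prime `ℓ` of multiplicative reduction. -/
theorem exists_tateUnif_padicComplex (W : WeierstrassCurve ℤ) (hΔ : W.Δ ≠ 0)
    (hℓΔ : (ℓ : ℤ) ∣ W.Δ) (hc₄ : ¬ (ℓ : ℤ) ∣ W.c₄) :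
    ∃ T : TateUnif W ℂ_[ℓ], ‖T.q‖ = ‖((W.Δ : ℤ) : ℂ_[ℓ])‖ ∧
      ∃ _hE : (tateCurve T.q).IsElliptic,
        (tateCurve T.q).j = ((W.c₄ : ℤ) : ℂ_[ℓ]) ^ 3 / ((W.Δ : ℤ) : ℂ_[ℓ]) :=
  exists_tateUnif W hΔ hℓ.1 (norm_natCast_self_padicComplex ℓ) hℓΔ hc₄

end PadicComplex

end Fermat.Agent.GZ.Tate.T4
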