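/-
GATE-Z / [MOD-beta] (T4), leaf (f1)+(f2): rational numbers in a valuation subring over `ℓ`.

`K` a field of characteristic `0`, `B` a valuation subring of `K` with `(ℓ : K) ∈ 𝔪_B`, `ℓ` prime.
Then `B ∩ ℚ = ℤ_(ℓ)`, in elementary form:

* `ratCast_mem_iff`          : `(q : K) ∈ B ↔ ¬ ℓ ∣ q.den`;
* `ratCast_mem_nonunits_iff` : `(q : K) ∈ 𝔪_B ↔ ¬ ℓ ∣ q.den ∧ (ℓ : ℤ) ∣ q.num`.

Consequently the predicate `ZeroCompAt B W x y` ("`(x, y)` reduces to the point at infinity or to a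
nonsingular point of `W mod 𝔪_B`") of a RATIONAL pair `(x, y)` does not depend on `(K, B)`:
`zeroCompAt_ratCast_iff` identifies it with the elementary predicate `RatZeroComp ℓ W x y`.
-/
import Fermat.Agent.S05.SameRed
import Fermat.Agent.S05.Inertia

set_option autoImplicit false

namespace Fermat.Agent.GZ.Tate.T4

open Fermat.Agent.S05 Fermat.Agent.S05.SameRed

section Rat

variable {K : Type*} [Field K] [CharZero K] {B : ValuationSubring K} {ℓ : ℕ}

/-- `(q : K) ∈ 𝔪_B ↔ ℓ ∤ den ∧ ℓ ∣ num`, the elementary side -/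
def RatNu (ℓ : ℕ) (q : ℚ) : Prop := ¬ ℓ ∣ q.den ∧ (ℓ : ℤ) ∣ q.num

theorem ratCast_mem_iff (hℓ : ℓ.Prime) (hB : B.LiesOverPrime ℓ) (q : ℚ) :
    (q : K) ∈ B ↔ ¬ ℓ ∣ q.den := by
  have hd0 : ((q.den : ℕ) : K) ≠ 0 := Nat.cast_ne_zero.2 q.den_nz
  constructor
  · intro hq h1
    have hd : ((q.den : ℕ) : K) ∈ B.nonunits := (natCast_mem_nonunits_iff hℓ hB _).2 h1
    have hnum : ((q.num : ℤ) : K) ∈ B.nonunits := by
      have e : ((q.num : ℤ) : K) = (q : K) * (q.den : K) := by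
        rw [Rat.cast_def, div_mul_cancel₀ _ hd0]
      rw [e]
      exact nu_mul_right B hq hd
    have h2 : (ℓ : ℤ) ∣ q.num := (intCast_mem_nonunits_iff hℓ hB _).1 hnum
    have h3 : ℓ ∣ q.num.natAbs := Int.natCast_dvd.1 h2
    have := Nat.Coprime.eq_one_of_dvd (Nat.Coprime.coprime_dvd_left h3 q.reduced) h1
    exact hℓ.one_lt.ne' this
  · intro h
    rw [Rat.cast_def, div_eq_mul_inv]
    exact mul_mem (intCast_mem B _) (natCast_inv_mem_of_not_dvd hℓ hB h)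

theorem ratCast_mem_nonunits_iff (hℓ : ℓ.Prime) (hB : B.LiesOverPrime ℓ) (q : ℚ) :
    (q : K) ∈ B.nonunits ↔ RatNu ℓ q := by
  have hd0 : ((q.den : ℕ) : K) ≠ 0 := Nat.cast_ne_zero.2 q.den_nz
  constructor
  · intro hq
    have hqB : (q : K) ∈ B := nu_mem B hq
    refine ⟨(ratCast_mem_iff hℓ hB q).1 hqB, ?_⟩
    have hnum : ((q.num : ℤ) : K) ∈ B.nonunits := by
      have e : ((q.num : ℤ) : K) = (q : K) * (q.den : K) := by
        rw [Rat.cast_def, div_mul_cancel₀ _ hd0]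
      rw [e]
      exact nu_mul_left B hq (natCast_mem B _)
    exact (intCast_mem_nonunits_iff hℓ hB _).1 hnum
  · rintro ⟨h1, h2⟩
    rw [Rat.cast_def, div_eq_mul_inv]
    exact nu_mul_left B ((intCast_mem_nonunits_iff hℓ hB _).2 h2)
      (natCast_inv_mem_of_not_dvd hℓ hB h1)

end Rat

section ZeroComp

variable {K : Type*} [Field K]

/-- **The zero-component predicate w.r.t. a valuation subring `B`** for the integral model `W`:
the pair `(x, y)` has `x ∉ B` (reduces to the point at infinity) or is `B`-integral with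
nonsingular reduction. -/
def ZeroCompAt (B : ValuationSubring K) (W : WeierstrassCurve ℤ) (x y : K) : Prop :=
  x ∉ B ∨ (x ∈ B ∧ y ∈ B ∧ NonsingularRed B (W.map (Int.castRingHom K)) x y)

/-- the two partial derivatives of the Weierstrass polynomial, over `ℚ` -/
def ratD1 (W : WeierstrassCurve ℤ) (x y : ℚ) : ℚ :=
  (W.a₁ : ℚ) * y - (3 * x ^ 2 + 2 * (W.a₂ : ℚ) * x + (W.a₄ : ℚ))

def ratD2 (W : WeierstrassCurve ℤ) (x y : ℚ) : ℚ :=
  2 * y + (W.a₁ : ℚ) * x + (W.a₃ : ℚ)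

/-- the elementary (field-independent) zero-component predicate of a rational pair -/
def RatZeroComp (ℓ : ℕ) (W : WeierstrassCurve ℤ) (x y : ℚ) : Prop :=
  ℓ ∣ x.den ∨ (¬ ℓ ∣ x.den ∧ ¬ ℓ ∣ y.den ∧ (¬ RatNu ℓ (ratD1 W x y) ∨ ¬ RatNu ℓ (ratD2 W x y)))

variable [CharZero K] {B : ValuationSubring K} {ℓ : ℕ}

theorem nonsingularRed_ratCast_iff (hℓ : ℓ.Prime) (hB : B.LiesOverPrime ℓ) (W : WeierstrassCurve ℤ)
    (x y : ℚ) :
    NonsingularRed B (W.map (Int.castRingHom K)) (x : K) (y : K) ↔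
      (¬ RatNu ℓ (ratD1 W x y) ∨ ¬ RatNu ℓ (ratD2 W x y)) := by
  unfold NonsingularRed
  simp only [WeierstrassCurve.map_a₁, WeierstrassCurve.map_a₂, WeierstrassCurve.map_a₃,
    WeierstrassCurve.map_a₄, eq_intCast]
  have e1 : ((W.a₁ : ℤ) : K) * (y : K) - (3 * (x : K) ^ 2 + 2 * ((W.a₂ : ℤ) : K) * (x : K) +
      ((W.a₄ : ℤ) : K)) = ((ratD1 W x y : ℚ) : K) := by
    unfold ratD1
    push_cast
    ring
  have e2 : 2 * (y : K) + ((W.a₁ : ℤ) : K) * (x : K) + ((W.a₃ : ℤ) : K) =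
      ((ratD2 W x y : ℚ) : K) := by
    unfold ratD2
    push_cast
    ring
  rw [e1, e2, ratCast_mem_nonunits_iff hℓ hB, ratCast_mem_nonunits_iff hℓ hB]

/-- **The zero-component predicate of a rational pair is independent of `(K, B)`.** -/
theorem zeroCompAt_ratCast_iff (hℓ : ℓ.Prime) (hB : B.LiesOverPrime ℓ) (W : WeierstrassCurve ℤ)
    (x y : ℚ) : ZeroCompAt B W (x : K) (y : K) ↔ RatZeroComp ℓ W x y := by
  unfold ZeroCompAt RatZeroComp
  rw [ratCast_mem_iff hℓ hB x, ratCast_mem_iff hℓ hB y, nonsingularRed_ratCast_iff hℓ hB, not_not]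

/-- two valuation subrings over the same prime see the same zero component of a rational pair -/
theorem zeroCompAt_ratCast_congr {K' : Type*} [Field K'] [CharZero K'] {B' : ValuationSubring K'}
    (hℓ : ℓ.Prime) (hB : B.LiesOverPrime ℓ) (hB' : B'.LiesOverPrime ℓ) (W : WeierstrassCurve ℤ)
    (x y : ℚ) : ZeroCompAt B W (x : K) (y : K) ↔ ZeroCompAt B' W (x : K') (y : K') := by
  rw [zeroCompAt_ratCast_iff hℓ hB, zeroCompAt_ratCast_iff hℓ hB']

end ZeroComp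

end Fermat.Agent.GZ.Tate.T4
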