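/-
GATE-Z / [MOD-beta] (T4), leaf (f3): the frozen `WeierstrassCurve.InZeroComponentAt` in terms of
the ball predicate `ZeroCompAt` and, for rational points, of the elementary predicate
`RatZeroComp` — hence of `ZeroCompAt B` for ANY `(K, B)` over the same prime (e.g. the unit ball
of `ℂ_[ℓ]`).

* `residue_nonsingular_iff` : for `x, y ∈ A` on the curve, the residue-field `Nonsingular` of the
  frozen definition is equivalent to `S05.NonsingularRed A`;
* `inZeroComponentAt_some_iff` : `W.InZeroComponentAt A (some x y h) ↔ ZeroCompAt A W x y`;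
* `exists_rat_coords` : a nonzero `G_ℚ`-fixed point has rational coordinates;
* `inZeroComponentAt_ratCast_iff` : for `x y : ℚ`,
  `W.InZeroComponentAt A (some x y h) ↔ RatZeroComp ℓ W x y`;
* `inZeroComponentAt_iff_ball` : `… ↔ ZeroCompAt B W (x : K) (y : K)` for every `(K, B)` over `ℓ`.
-/
import Fermat.Agent.GZ.Tate.T4.RatBall
import Fermat.Agent.GZ.Cut.Main

set_option autoImplicit false
set_option linter.unusedSectionVars false

namespace Fermat.Agent.GZ.Tate.T4

open IsLocalRing WeierstrassCurve WeierstrassCurve.Affine WeierstrassCurve.Affine.Point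
open Fermat.Agent.S05 Fermat.Agent.S05.SameRed Fermat.Agent.GE.Unip Fermat.Agent.GZ.Cut

section Residue

variable {K : Type*} [Field K] (A : ValuationSubring K) (W : WeierstrassCurve ℤ)

theorem map_map_int {R S : Type*} [CommRing R] [CommRing S] (f : R →+* S) :
    (W.map (Int.castRingHom R)).map f = W.map (Int.castRingHom S) := by
  rw [WeierstrassCurve.map_map]
  congr 1
  exact RingHom.ext_int _ _

/-- the Weierstrass equation descends to the residue field -/
theorem residue_equation {x y : K} (hx : x ∈ A) (hy : y ∈ A)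
    (heq : (W.map (Int.castRingHom K)).toAffine.Equation x y) :
    (W.map (Int.castRingHom (ResidueField A))).toAffine.Equation
      (residue A ⟨x, hx⟩) (residue A ⟨y, hy⟩) := by
  have hA : (W.map (Int.castRingHom A)).toAffine.Equation (⟨x, hx⟩ : A) ⟨y, hy⟩ := by
    have heq' : ((W.map (Int.castRingHom A)).map A.subtype).toAffine.Equation
        (A.subtype ⟨x, hx⟩) (A.subtype ⟨y, hy⟩) := by
      rw [map_map_int]
      exact heq
    exact (Affine.map_equation (W := (W.map (Int.castRingHom A)).toAffine)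
      (f := A.subtype) Subtype.val_injective ⟨x, hx⟩ ⟨y, hy⟩).1 heq'
  have h2 : ((W.map (Int.castRingHom A)).map (residue A)).toAffine.Equation
      (residue A ⟨x, hx⟩) (residue A ⟨y, hy⟩) :=
    Affine.Equation.map (W := (W.map (Int.castRingHom A)).toAffine) (residue A) hA
  rw [map_map_int] at h2
  exact h2

/-- **the residue-field `Nonsingular` of the frozen definition ⟺ `NonsingularRed`** -/
theorem residue_nonsingular_iff {x y : K} (hx : x ∈ A) (hy : y ∈ A)
    (heq : (W.map (Int.castRingHom K)).toAffine.Equation x y) :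
    (W.map (Int.castRingHom (ResidueField A))).toAffine.Nonsingular
      (residue A ⟨x, hx⟩) (residue A ⟨y, hy⟩) ↔
      NonsingularRed A (W.map (Int.castRingHom K)) x y := by
  refine ⟨nonsingularRed_of_residue A W hx hy, fun hns => ?_⟩
  rw [Affine.nonsingular_iff']
  refine ⟨residue_equation A W hx hy heq, ?_⟩
  simp only [WeierstrassCurve.map_a₁, WeierstrassCurve.map_a₂, WeierstrassCurve.map_a₃,
    WeierstrassCurve.map_a₄, eq_intCast]
  rw [← resK_of_mem A hx, ← resK_of_mem A hy]
  unfold NonsingularRed at hns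
  simp only [WeierstrassCurve.map_a₁, WeierstrassCurve.map_a₂, WeierstrassCurve.map_a₃,
    WeierstrassCurve.map_a₄, eq_intCast] at hns
  have i1 : ((W.a₁ : ℤ) : K) ∈ A := intCast_mem' _
  have i2 : ((W.a₂ : ℤ) : K) ∈ A := intCast_mem' _
  have i3 : ((W.a₃ : ℤ) : K) ∈ A := intCast_mem' _
  have i4 : ((W.a₄ : ℤ) : K) ∈ A := intCast_mem' _
  have m2 : (2 : K) ∈ A := ofNat_mem A 2
  have m3 : (3 : K) ∈ A := ofNat_mem A 3
  have hx2 : x ^ 2 ∈ A := pow_mem hx 2
  rcases hns with h1 | h1
  · left
    intro h0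
    apply h1
    have mD : 3 * x ^ 2 + 2 * (W.a₂ : K) * x + (W.a₄ : K) ∈ A :=
      add_mem (add_mem (mul_mem m3 hx2) (mul_mem (mul_mem m2 i2) hx)) i4
    refine (resK_eq_zero_iff (sub_mem (mul_mem i1 hy) mD)).1 ?_
    rw [resK_sub (mul_mem i1 hy) mD, resK_mul i1 hy,
      resK_add (add_mem (mul_mem m3 hx2) (mul_mem (mul_mem m2 i2) hx)) i4,
      resK_add (mul_mem m3 hx2) (mul_mem (mul_mem m2 i2) hx), resK_mul m3 hx2, resK_pow hx,
      resK_mul (mul_mem m2 i2) hx, resK_mul m2 i2, resK_ofNat, resK_ofNat, resK_intCast,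
      resK_intCast, resK_intCast]
    exact h0
  · right
    intro h0
    apply h1
    have mD : 2 * y + (W.a₁ : K) * x + (W.a₃ : K) ∈ A :=
      add_mem (add_mem (mul_mem m2 hy) (mul_mem i1 hx)) i3
    refine (resK_eq_zero_iff mD).1 ?_
    rw [resK_add (add_mem (mul_mem m2 hy) (mul_mem i1 hx)) i3,
      resK_add (mul_mem m2 hy) (mul_mem i1 hx), resK_mul m2 hy, resK_mul i1 hx, resK_ofNat,
      resK_intCast, resK_intCast]
    exact h0

end Residue

section Frozen

variable (W : WeierstrassCurve ℤ) (A : ValuationSubring (AlgebraicClosure ℚ))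

/-- the Weierstrass equation of a point of `(W.map (Int.castRingHom ℚ))⁄ℚ̄`, for the curve
`W.map (Int.castRingHom ℚ̄)` -/
theorem equation_of_nonsingular {x y : AlgebraicClosure ℚ}
    (h : ((W.map (Int.castRingHom ℚ))⁄(AlgebraicClosure ℚ)).Nonsingular x y) :
    (W.map (Int.castRingHom (AlgebraicClosure ℚ))).toAffine.Equation x y := by
  rw [← baseChange_coeff_eq]
  exact h.1

/-- **The frozen zero-component predicate of an affine point is the ball predicate.** -/
theorem inZeroComponentAt_some_iff {x y : AlgebraicClosure ℚ}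
    (h : ((W.map (Int.castRingHom ℚ))⁄(AlgebraicClosure ℚ)).Nonsingular x y) :
    W.InZeroComponentAt A (Point.some x y h) ↔ ZeroCompAt A W x y := by
  have heq := equation_of_nonsingular W h
  constructor
  · rintro (h0 | ⟨x', y', h', he, hcase⟩)
    · exact absurd h0 (by simp [Point.zero_def])
    · injection he with hxx hyy
      subst hxx hyy
      rcases hcase with hx | ⟨hx, hy, hns⟩
      · exact Or.inl hx
      · exact Or.inr ⟨hx, hy, (residue_nonsingular_iff A W hx hy heq).1 hns⟩
  · rintro (hx | ⟨hx, hy, hns⟩)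
    · exact Or.inr ⟨x, y, h, rfl, Or.inl hx⟩
    · exact Or.inr ⟨x, y, h, rfl, Or.inr ⟨hx, hy, (residue_nonsingular_iff A W hx hy heq).2 hns⟩⟩

/-- a nonzero `G_ℚ`-fixed point has rational coordinates -/
theorem exists_rat_coords (Q : ((W.map (Int.castRingHom ℚ))⁄(AlgebraicClosure ℚ)).Point)
    (hQ0 : Q ≠ 0)
    (hQfix : ∀ σ : AlgebraicClosure ℚ ≃ₐ[ℚ] AlgebraicClosure ℚ, σ • Q = Q) :
    ∃ (qx qy : ℚ) (h : ((W.map (Int.castRingHom ℚ))⁄(AlgebraicClosure ℚ)).Nonsingular
      (qx : AlgebraicClosure ℚ) (qy : AlgebraicClosure ℚ)), Q = Point.some _ _ h := by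
  rcases Q with _ | ⟨x, y, h⟩
  · exact absurd rfl hQ0
  · have hfix : ∀ σ : AlgebraicClosure ℚ ≃ₐ[ℚ] AlgebraicClosure ℚ, σ x = x ∧ σ y = y := by
      intro σ
      have h1 : (Point.some (σ x) (σ y)
            ((Affine.baseChange_nonsingular (W.map (Int.castRingHom ℚ)) σ.toAlgHom.injective
              x y).mpr h) : ((W.map (Int.castRingHom ℚ))⁄(AlgebraicClosure ℚ)).Point) =
          Point.some x y h := hQfix σ
      injection h1 with h1 h2
      exact ⟨h1, h2⟩
    obtain ⟨qx, hqx⟩ := exists_ratCast_of_fixed x (fun σ => (hfix σ).1)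
    obtain ⟨qy, hqy⟩ := exists_ratCast_of_fixed y (fun σ => (hfix σ).2)
    subst hqx hqy
    exact ⟨qx, qy, h, rfl⟩

variable {A} {ℓ : ℕ}

/-- **Rational points: the frozen predicate is the elementary predicate.** -/
theorem inZeroComponentAt_ratCast_iff (hℓ : ℓ.Prime) (hA : A.LiesOverPrime ℓ) {x y : ℚ}
    (h : ((W.map (Int.castRingHom ℚ))⁄(AlgebraicClosure ℚ)).Nonsingular
      (x : AlgebraicClosure ℚ) (y : AlgebraicClosure ℚ)) :
    W.InZeroComponentAt A (Point.some _ _ h) ↔ RatZeroComp ℓ W x y := by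
  rw [inZeroComponentAt_some_iff, zeroCompAt_ratCast_iff hℓ hA]

/-- **Rational points: the frozen predicate is the ball predicate of ANY `(K, B)` over `ℓ`.** -/
theorem inZeroComponentAt_iff_ball (hℓ : ℓ.Prime) (hA : A.LiesOverPrime ℓ) {x y : ℚ}
    (h : ((W.map (Int.castRingHom ℚ))⁄(AlgebraicClosure ℚ)).Nonsingular
      (x : AlgebraicClosure ℚ) (y : AlgebraicClosure ℚ))
    {K : Type*} [Field K] [CharZero K] {B : ValuationSubring K} (hB : B.LiesOverPrime ℓ) :
    W.InZeroComponentAt A (Point.some _ _ h) ↔ ZeroCompAt B W (x : K) (y : K) := by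
  rw [inZeroComponentAt_ratCast_iff W hℓ hA, zeroCompAt_ratCast_iff hℓ hB]

end Frozen

end Fermat.Agent.GZ.Tate.T4
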