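import Fermat.Agent.GZ.Tate.Defs

/-!
# GATE-Z / [MOD-beta] (T4), part 1: size of the Tate series on the annulus `‖q‖ < ‖u‖ ≤ 1`

`K` a complete (only used through `Summable` hypotheses) ultrametric normed field, `0 < ‖q‖ < 1`.
With `xTerm w = w / (1 - w)^2`, `yTerm w = w^2 / (1 - w)^3` the Tate coordinates are

  `X u = ∑' n : ℤ, xTerm (q^n * u) - 2 * s₁`,  `Y u = ∑' n : ℤ, yTerm (q^n * u) + s₁`.

We prove, for every summable family of this shape: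

* `‖u‖ = 1` ⟹ `‖∑' n, xTerm (q^n u) - xTerm u‖ ≤ ‖q‖` and the same for `yTerm`
  (`norm_tsum_xTerm_sub_le`, `norm_tsum_yTerm_sub_le`), so on the unit circle the point reduces to
  `(ū/(1-ū)², ū²/(1-ū)³)`;
* `‖q‖ < ‖u‖ < 1` ⟹ both sums have norm `< 1` (`norm_tsum_xTerm_lt_one`, `norm_tsum_yTerm_lt_one`),
  so the point reduces to the node `(0,0)`;
* `‖u‖ = 1`, `0 < ‖1 - u‖ < 1` ⟹ `‖X u‖ = ‖1-u‖⁻² > 1`.
-/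

set_option autoImplicit false
set_option linter.unusedSectionVars false

namespace Fermat.Agent.GZ.Tate.T4

open IsUltrametricDist

section Basic

variable {K : Type*} [NormedField K] [IsUltrametricDist K]

theorem norm_one_sub_le_of_le {w : K} (h : ‖w‖ ≤ 1) : ‖1 - w‖ ≤ 1 := by
  rw [sub_eq_add_neg]
  refine (norm_add_le_max _ _).trans ?_
  rw [norm_one, norm_neg]; exact max_le le_rfl h

theorem norm_xTerm (w : K) : ‖xTerm w‖ = ‖w‖ / ‖1 - w‖ ^ 2 := by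
  rw [xTerm, norm_div, norm_pow]

theorem norm_yTerm (w : K) : ‖yTerm w‖ = ‖w‖ ^ 2 / ‖1 - w‖ ^ 3 := by
  rw [yTerm, norm_div, norm_pow, norm_pow]

theorem norm_xTerm_of_eq {w : K} (h : ‖w‖ = 1) : ‖xTerm w‖ = (‖1 - w‖ ^ 2)⁻¹ := by
  rw [norm_xTerm, h, one_div]

theorem norm_yTerm_of_eq {w : K} (h : ‖w‖ = 1) : ‖yTerm w‖ = (‖1 - w‖ ^ 3)⁻¹ := by
  rw [norm_yTerm, h, one_pow, one_div]

/-- On the unit circle away from the residue disc of `1` both summands are units. -/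
theorem norm_xTerm_eq_one {w : K} (h : ‖w‖ = 1) (h1 : ‖1 - w‖ = 1) : ‖xTerm w‖ = 1 := by
  rw [norm_xTerm_of_eq h, h1]; simp

theorem norm_yTerm_eq_one {w : K} (h : ‖w‖ = 1) (h1 : ‖1 - w‖ = 1) : ‖yTerm w‖ = 1 := by
  rw [norm_yTerm_of_eq h, h1]; simp

/-- Inside the residue disc of `1` (but `w ≠ 1`) the `X`-summand is not integral. -/
theorem one_lt_norm_xTerm {w : K} (h : ‖w‖ = 1) (h0 : w ≠ 1) (h1 : ‖1 - w‖ < 1) :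
    1 < ‖xTerm w‖ := by
  rw [norm_xTerm_of_eq h]
  have hpos : 0 < ‖1 - w‖ := norm_pos_iff.2 (sub_ne_zero.2 (Ne.symm h0))
  have h2 : ‖1 - w‖ ^ 2 < 1 := pow_lt_one₀ hpos.le h1 (by norm_num)
  exact (one_lt_inv₀ (pow_pos hpos 2)).2 h2

/-- The generic ultrametric estimate: a summable family all of whose terms except the `0`-th are
`≤ c` has sum within `c` of its `0`-th term. -/
theorem norm_tsum_sub_le {ι : Type*} [DecidableEq ι] {f : ι → K} (hf : Summable f) (i₀ : ι)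
    {c : ℝ} (hc : 0 ≤ c) (h : ∀ i, i ≠ i₀ → ‖f i‖ ≤ c) : ‖∑' i, f i - f i₀‖ ≤ c := by
  rw [hf.tsum_eq_add_tsum_ite i₀, add_sub_cancel_left]
  refine norm_tsum_le_of_forall_le_of_nonneg hc fun i => ?_
  by_cases hi : i = i₀
  · simp [hi, hc]
  · simpa [hi] using h i hi

/-- A summable family with all terms of norm `≤ c`. -/
theorem norm_tsum_le' {ι : Type*} {f : ι → K} {c : ℝ} (hc : 0 ≤ c) (h : ∀ i, ‖f i‖ ≤ c) :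
    ‖∑' i, f i‖ ≤ c := norm_tsum_le_of_forall_le_of_nonneg hc h

end Basic

section Annulus

variable {K : Type*} [NormedField K] [IsUltrametricDist K]
variable {q u : K}

theorem norm_zpow_mul (n : ℤ) : ‖q ^ n * u‖ = ‖q‖ ^ n * ‖u‖ := by
  rw [norm_mul, norm_zpow]

/-- `‖q‖ ^ n ≤ ‖q‖` for `n ≥ 1`. -/
theorem norm_zpow_le_of_pos (hq0 : 0 < ‖q‖) (hq1 : ‖q‖ < 1) {n : ℤ} (hn : 0 < n) :
    ‖q‖ ^ n ≤ ‖q‖ := by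
  have := zpow_le_zpow_right_of_le_one₀ hq0 hq1.le (show (1 : ℤ) ≤ n by omega)
  simpa using this

/-- `‖q‖ ^ (-n) ≤ ‖q‖` for `n ≤ -1`. -/
theorem norm_zpow_neg_le_of_neg (hq0 : 0 < ‖q‖) (hq1 : ‖q‖ < 1) {n : ℤ} (hn : n < 0) :
    ‖q‖ ^ (-n) ≤ ‖q‖ :=
  norm_zpow_le_of_pos hq0 hq1 (by omega)

/-- `1 < ‖q‖ ^ n · r` when `n < 0` and `‖q‖ < r`. -/
theorem one_lt_zpow_mul_of_neg (hq0 : 0 < ‖q‖) (hq1 : ‖q‖ < 1) {r : ℝ} (hr : ‖q‖ < r) {n : ℤ}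
    (hn : n < 0) : 1 < ‖q‖ ^ n * r := by
  have h1 : ‖q‖ ^ (-n) ≤ ‖q‖ := norm_zpow_neg_le_of_neg hq0 hq1 hn
  have hpos : 0 < ‖q‖ ^ (-n) := zpow_pos hq0 _
  have h2 : ‖q‖ ^ n = (‖q‖ ^ (-n))⁻¹ := by rw [zpow_neg, inv_inv]
  rw [h2, ← div_eq_inv_mul, one_lt_div hpos]
  exact h1.trans_lt hr

/-- The terms `n ≠ 0` of the `X`-series for `‖q‖ < ‖u‖ ≤ 1` are bounded by `‖q‖ / ‖u‖`. -/
theorem norm_xTerm_term_le (hq0 : 0 < ‖q‖) (hq1 : ‖q‖ < 1) (hu0 : ‖q‖ < ‖u‖) (hu1 : ‖u‖ ≤ 1)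
    {n : ℤ} (hn : n ≠ 0) : ‖xTerm (q ^ n * u)‖ ≤ ‖q‖ / ‖u‖ := by
  have hupos : 0 < ‖u‖ := hq0.trans hu0
  rcases lt_or_gt_of_ne hn with hneg | hpos
  · have hgt : 1 < ‖q ^ n * u‖ := by
      rw [norm_zpow_mul]; exact one_lt_zpow_mul_of_neg hq0 hq1 hu0 hneg
    rw [norm_xTerm_of_gt hgt, norm_zpow_mul, mul_inv, ← zpow_neg, div_eq_mul_inv]
    exact mul_le_mul_of_nonneg_right (norm_zpow_neg_le_of_neg hq0 hq1 hneg)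
      (inv_nonneg.2 hupos.le)
  · have hle : ‖q‖ ^ n ≤ ‖q‖ := norm_zpow_le_of_pos hq0 hq1 hpos
    have hlt : ‖q ^ n * u‖ < 1 := by
      rw [norm_zpow_mul]
      calc ‖q‖ ^ n * ‖u‖ ≤ ‖q‖ * 1 := mul_le_mul hle hu1 hupos.le hq0.le
        _ < 1 := by rw [mul_one]; exact hq1
    rw [norm_xTerm_of_lt hlt, norm_zpow_mul]
    calc ‖q‖ ^ n * ‖u‖ ≤ ‖q‖ * 1 := mul_le_mul hle hu1 hupos.le hq0.le
      _ = ‖q‖ := mul_one _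
      _ ≤ ‖q‖ / ‖u‖ := by
        rw [le_div_iff₀ hupos]; exact mul_le_of_le_one_right hq0.le hu1

/-- The terms `n ≠ 0` of the `Y`-series for `‖q‖ < ‖u‖ ≤ 1` are bounded by `‖q‖ / ‖u‖`. -/
theorem norm_yTerm_term_le (hq0 : 0 < ‖q‖) (hq1 : ‖q‖ < 1) (hu0 : ‖q‖ < ‖u‖) (hu1 : ‖u‖ ≤ 1)
    {n : ℤ} (hn : n ≠ 0) : ‖yTerm (q ^ n * u)‖ ≤ ‖q‖ / ‖u‖ := by
  have hupos : 0 < ‖u‖ := hq0.trans hu0
  rcases lt_or_gt_of_ne hn with hneg | hpos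
  · have hgt : 1 < ‖q ^ n * u‖ := by
      rw [norm_zpow_mul]; exact one_lt_zpow_mul_of_neg hq0 hq1 hu0 hneg
    rw [norm_yTerm_of_gt hgt, norm_zpow_mul, mul_inv, ← zpow_neg, div_eq_mul_inv]
    exact mul_le_mul_of_nonneg_right (norm_zpow_neg_le_of_neg hq0 hq1 hneg)
      (inv_nonneg.2 hupos.le)
  · have hle : ‖q‖ ^ n ≤ ‖q‖ := norm_zpow_le_of_pos hq0 hq1 hpos
    have hle1 : ‖q‖ ^ n * ‖u‖ ≤ ‖q‖ := by
      calc ‖q‖ ^ n * ‖u‖ ≤ ‖q‖ * 1 := mul_le_mul hle hu1 hupos.le hq0.le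
        _ = ‖q‖ := mul_one _
    have hlt : ‖q ^ n * u‖ < 1 := by
      rw [norm_zpow_mul]; exact hle1.trans_lt hq1
    have hnn : 0 ≤ ‖q‖ ^ n * ‖u‖ := mul_nonneg (zpow_nonneg hq0.le _) hupos.le
    rw [norm_yTerm_of_lt hlt, norm_zpow_mul]
    calc (‖q‖ ^ n * ‖u‖) ^ 2 ≤ ‖q‖ ^ n * ‖u‖ :=
          pow_le_of_le_one hnn (hle1.trans hq1.le) (by norm_num)
      _ ≤ ‖q‖ := hle1
      _ ≤ ‖q‖ / ‖u‖ := by
        rw [le_div_iff₀ hupos]; exact mul_le_of_le_one_right hq0.le hu1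

/-- **(T4.a/b), X-series.** On the unit circle the `X`-series is `xTerm u` up to `O(q)`. -/
theorem norm_tsum_xTerm_sub_le (hq0 : 0 < ‖q‖) (hq1 : ‖q‖ < 1) (hu : ‖u‖ = 1)
    (hs : Summable fun n : ℤ => xTerm (q ^ n * u)) :
    ‖∑' n : ℤ, xTerm (q ^ n * u) - xTerm u‖ ≤ ‖q‖ := by
  have h := norm_tsum_sub_le hs 0 hq0.le (fun n hn => by
    have := norm_xTerm_term_le hq0 hq1 (hu ▸ hq1) hu.le hn
    rwa [hu, div_one] at this)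
  simpa using h

/-- **(T4.a/b), Y-series.** On the unit circle the `Y`-series is `yTerm u` up to `O(q)`. -/
theorem norm_tsum_yTerm_sub_le (hq0 : 0 < ‖q‖) (hq1 : ‖q‖ < 1) (hu : ‖u‖ = 1)
    (hs : Summable fun n : ℤ => yTerm (q ^ n * u)) :
    ‖∑' n : ℤ, yTerm (q ^ n * u) - yTerm u‖ ≤ ‖q‖ := by
  have h := norm_tsum_sub_le hs 0 hq0.le (fun n hn => by
    have := norm_yTerm_term_le hq0 hq1 (hu ▸ hq1) hu.le hn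
    rwa [hu, div_one] at this)
  simpa using h

/-- **(T4.c), X-series.** Strictly inside the fundamental annulus the `X`-series is small. -/
theorem norm_tsum_xTerm_le (hq0 : 0 < ‖q‖) (hq1 : ‖q‖ < 1) (hu0 : ‖q‖ < ‖u‖) (hu1 : ‖u‖ < 1) :
    ‖∑' n : ℤ, xTerm (q ^ n * u)‖ ≤ max ‖u‖ (‖q‖ / ‖u‖) := by
  have hupos : 0 < ‖u‖ := hq0.trans hu0
  refine norm_tsum_le' (le_max_of_le_left hupos.le) fun n => ?_
  by_cases hn : n = 0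
  · subst hn
    rw [zpow_zero, one_mul, norm_xTerm_of_lt hu1]; exact le_max_left _ _
  · exact (norm_xTerm_term_le hq0 hq1 hu0 hu1.le hn).trans (le_max_right _ _)

/-- **(T4.c), Y-series.** -/
theorem norm_tsum_yTerm_le (hq0 : 0 < ‖q‖) (hq1 : ‖q‖ < 1) (hu0 : ‖q‖ < ‖u‖) (hu1 : ‖u‖ < 1) :
    ‖∑' n : ℤ, yTerm (q ^ n * u)‖ ≤ max ‖u‖ (‖q‖ / ‖u‖) := by
  have hupos : 0 < ‖u‖ := hq0.trans hu0
  refine norm_tsum_le' (le_max_of_le_left hupos.le) fun n => ?_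
  by_cases hn : n = 0
  · subst hn
    rw [zpow_zero, one_mul, norm_yTerm_of_lt hu1]
    exact (pow_le_of_le_one hupos.le hu1.le (by norm_num)).trans (le_max_left _ _)
  · exact (norm_yTerm_term_le hq0 hq1 hu0 hu1.le hn).trans (le_max_right _ _)

theorem max_lt_one_of_annulus (hq0 : 0 < ‖q‖) (hu0 : ‖q‖ < ‖u‖) (hu1 : ‖u‖ < 1) :
    max ‖u‖ (‖q‖ / ‖u‖) < 1 :=
  max_lt hu1 ((div_lt_one (hq0.trans hu0)).2 hu0)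

end Annulus

/-! ## The coordinates `X`, `Y` (shape only: `s₁` is any element with `‖s₁‖ ≤ ‖q‖`) -/

section Coordinates

variable {K : Type*} [NormedField K] [IsUltrametricDist K]
variable {q u s₁ : K}

/-- The Tate `X`-coordinate in the shape `∑' n : ℤ, F(qⁿu) - 2 s₁`. -/
noncomputable def tateX (q s₁ u : K) : K := ∑' n : ℤ, xTerm (q ^ n * u) - 2 * s₁

/-- The Tate `Y`-coordinate in the shape `∑' n : ℤ, G(qⁿu) + s₁`. -/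
noncomputable def tateY (q s₁ u : K) : K := ∑' n : ℤ, yTerm (q ^ n * u) + s₁

theorem norm_two_mul_le (x : K) : ‖2 * x‖ ≤ ‖x‖ := by
  rw [norm_mul]
  have h2 : ‖(2 : K)‖ ≤ 1 := by
    have := IsUltrametricDist.norm_natCast_le_one K 2
    simpa using this
  exact mul_le_of_le_one_left (norm_nonneg _) h2

/-- **(T4.a)** `‖u‖ = 1` ⟹ `X u ≡ u/(1-u)²  (mod q)`. -/
theorem norm_tateX_sub_le (hq0 : 0 < ‖q‖) (hq1 : ‖q‖ < 1) (hs₁ : ‖s₁‖ ≤ ‖q‖) (hu : ‖u‖ = 1)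
    (hs : Summable fun n : ℤ => xTerm (q ^ n * u)) :
    ‖tateX q s₁ u - xTerm u‖ ≤ ‖q‖ := by
  have h1 := norm_tsum_xTerm_sub_le hq0 hq1 hu hs
  have h2 : ‖-(2 * s₁)‖ ≤ ‖q‖ := by rw [norm_neg]; exact (norm_two_mul_le _).trans hs₁
  have : tateX q s₁ u - xTerm u = (∑' n : ℤ, xTerm (q ^ n * u) - xTerm u) + -(2 * s₁) := by
    rw [tateX]; ring
  rw [this]
  exact (norm_add_le_max _ _).trans (max_le h1 h2)

/-- **(T4.a)** `‖u‖ = 1` ⟹ `Y u ≡ u²/(1-u)³  (mod q)`. -/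
theorem norm_tateY_sub_le (hq0 : 0 < ‖q‖) (hq1 : ‖q‖ < 1) (hs₁ : ‖s₁‖ ≤ ‖q‖) (hu : ‖u‖ = 1)
    (hs : Summable fun n : ℤ => yTerm (q ^ n * u)) :
    ‖tateY q s₁ u - yTerm u‖ ≤ ‖q‖ := by
  have h1 := norm_tsum_yTerm_sub_le hq0 hq1 hu hs
  have : tateY q s₁ u - yTerm u = (∑' n : ℤ, yTerm (q ^ n * u) - yTerm u) + s₁ := by
    rw [tateY]; ring
  rw [this]
  exact (norm_add_le_max _ _).trans (max_le h1 hs₁)

/-- **(T4.b)** `‖u‖ = 1`, `u ≠ 1`, `‖1 - u‖ < 1` ⟹ `X u` is not integral. -/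
theorem one_lt_norm_tateX (hq0 : 0 < ‖q‖) (hq1 : ‖q‖ < 1) (hs₁ : ‖s₁‖ ≤ ‖q‖) (hu : ‖u‖ = 1)
    (hu1 : u ≠ 1) (h1u : ‖1 - u‖ < 1) (hs : Summable fun n : ℤ => xTerm (q ^ n * u)) :
    1 < ‖tateX q s₁ u‖ := by
  have h1 := norm_tateX_sub_le hq0 hq1 hs₁ hu hs
  have h2 := one_lt_norm_xTerm hu hu1 h1u
  have hne : ‖tateX q s₁ u - xTerm u‖ ≠ ‖xTerm u‖ := ((h1.trans_lt hq1).trans h2).ne
  have : tateX q s₁ u = (tateX q s₁ u - xTerm u) + xTerm u := by ring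
  rw [this, norm_add_eq_max_of_norm_ne_norm hne]
  exact lt_max_of_lt_right h2

/-- **(T4.c)** `‖q‖ < ‖u‖ < 1` ⟹ `‖X u‖ < 1`. -/
theorem norm_tateX_lt_one (hq0 : 0 < ‖q‖) (hq1 : ‖q‖ < 1) (hs₁ : ‖s₁‖ ≤ ‖q‖)
    (hu0 : ‖q‖ < ‖u‖) (hu1 : ‖u‖ < 1) : ‖tateX q s₁ u‖ < 1 := by
  have h1 := (norm_tsum_xTerm_le hq0 hq1 hu0 hu1).trans_lt (max_lt_one_of_annulus hq0 hu0 hu1)
  have h2 : ‖-(2 * s₁)‖ < 1 := by
    rw [norm_neg]; exact ((norm_two_mul_le _).trans hs₁).trans_lt hq1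
  rw [tateX, sub_eq_add_neg]
  exact (norm_add_le_max _ _).trans_lt (max_lt h1 h2)

/-- **(T4.c)** `‖q‖ < ‖u‖ < 1` ⟹ `‖Y u‖ < 1`. -/
theorem norm_tateY_lt_one (hq0 : 0 < ‖q‖) (hq1 : ‖q‖ < 1) (hs₁ : ‖s₁‖ ≤ ‖q‖)
    (hu0 : ‖q‖ < ‖u‖) (hu1 : ‖u‖ < 1) : ‖tateY q s₁ u‖ < 1 := by
  have h1 := (norm_tsum_yTerm_le hq0 hq1 hu0 hu1).trans_lt (max_lt_one_of_annulus hq0 hu0 hu1)
  rw [tateY]
  exact (norm_add_le_max _ _).trans_lt (max_lt h1 (hs₁.trans_lt hq1))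

/-- **(T4.a)** integrality on the unit circle away from `1`. -/
theorem norm_tateX_eq_one (hq0 : 0 < ‖q‖) (hq1 : ‖q‖ < 1) (hs₁ : ‖s₁‖ ≤ ‖q‖) (hu : ‖u‖ = 1)
    (h1u : ‖1 - u‖ = 1) (hs : Summable fun n : ℤ => xTerm (q ^ n * u)) :
    ‖tateX q s₁ u‖ = 1 := by
  have h1 := norm_tateX_sub_le hq0 hq1 hs₁ hu hs
  have h2 := norm_xTerm_eq_one hu h1u
  have hne : ‖tateX q s₁ u - xTerm u‖ ≠ ‖xTerm u‖ := by rw [h2]; exact (h1.trans_lt hq1).ne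
  have : tateX q s₁ u = (tateX q s₁ u - xTerm u) + xTerm u := by ring
  rw [this, norm_add_eq_max_of_norm_ne_norm hne, h2]
  exact max_eq_right (h1.trans hq1.le)

theorem norm_tateY_le_one (hq0 : 0 < ‖q‖) (hq1 : ‖q‖ < 1) (hs₁ : ‖s₁‖ ≤ ‖q‖) (hu : ‖u‖ = 1)
    (h1u : ‖1 - u‖ = 1) (hs : Summable fun n : ℤ => yTerm (q ^ n * u)) :
    ‖tateY q s₁ u‖ ≤ 1 := by
  have h1 := norm_tateY_sub_le hq0 hq1 hs₁ hu hs
  have h2 := norm_yTerm_eq_one hu h1u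
  have : tateY q s₁ u = (tateY q s₁ u - yTerm u) + yTerm u := by ring
  rw [this]
  exact (norm_add_le_max _ _).trans (max_le (h1.trans hq1.le) h2.le)

end Coordinates

/-! ## Specialisation to the pinned vocabulary `X q u`, `Y q u`, `sK`, `a4`, `a6` of `GZ/Tate/Defs` -/

section Pinned

variable {K : Type*} [NormedField K] [IsUltrametricDist K]
variable {q u : K}

theorem norm_pow_succ_le (hq1 : ‖q‖ < 1) (n : ℕ) : ‖q ^ (n + 1)‖ ≤ ‖q‖ := by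
  rw [norm_pow]
  exact pow_le_of_le_one (norm_nonneg _) hq1.le (Nat.succ_ne_zero n)

theorem norm_pow_succ_lt_one (hq1 : ‖q‖ < 1) (n : ℕ) : ‖q ^ (n + 1)‖ < 1 :=
  (norm_pow_succ_le hq1 n).trans_lt hq1

theorem norm_natCast_mul_div_le (hq1 : ‖q‖ < 1) (c : ℕ) (n : ℕ) :
    ‖(c : K) * q ^ (n + 1) / (1 - q ^ (n + 1))‖ ≤ ‖q‖ := by
  rw [norm_div, norm_mul, norm_one_sub_of_lt (norm_pow_succ_lt_one hq1 n), div_one]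
  calc ‖(c : K)‖ * ‖q ^ (n + 1)‖ ≤ 1 * ‖q‖ :=
        mul_le_mul (IsUltrametricDist.norm_natCast_le_one K c) (norm_pow_succ_le hq1 n)
          (norm_nonneg _) zero_le_one
    _ = ‖q‖ := one_mul _

theorem norm_sTerm_le (k : ℕ) (hq1 : ‖q‖ < 1) (n : ℕ) : ‖sTerm k q n‖ ≤ ‖q‖ := by
  have : sTerm k q n = (((n + 1) ^ k : ℕ) : K) * q ^ (n + 1) / (1 - q ^ (n + 1)) := by
    rw [sTerm]; push_cast; ring
  rw [this]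
  exact norm_natCast_mul_div_le hq1 _ n

/-- `‖s_k(q)‖ ≤ ‖q‖`. -/
theorem norm_sK_le (k : ℕ) (hq1 : ‖q‖ < 1) : ‖sK k q‖ ≤ ‖q‖ :=
  norm_tsum_le' (norm_nonneg _) (norm_sTerm_le k hq1)

/-- `‖a₄(q)‖ ≤ ‖q‖`. -/
theorem norm_a4_le (hq1 : ‖q‖ < 1) : ‖a4 q‖ ≤ ‖q‖ := by
  rw [a4, norm_mul, norm_neg]
  have h5 : ‖(5 : K)‖ ≤ 1 := by
    have := IsUltrametricDist.norm_natCast_le_one K 5
    simpa using this
  calc ‖(5 : K)‖ * ‖sK 3 q‖ ≤ 1 * ‖q‖ :=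
        mul_le_mul h5 (norm_sK_le 3 hq1) (norm_nonneg _) zero_le_one
    _ = ‖q‖ := one_mul _

/-- `‖a₆(q)‖ ≤ ‖q‖`. -/
theorem norm_a6_le (hq1 : ‖q‖ < 1) : ‖a6 q‖ ≤ ‖q‖ := by
  rw [a6, norm_neg]
  exact norm_tsum_le' (norm_nonneg _) fun n => norm_natCast_mul_div_le hq1 _ n

theorem X_eq_tateX (q u : K) : X q u = tateX q (sK 1 q) u := rfl

theorem Y_eq_tateY (q u : K) : Y q u = tateY q (sK 1 q) u := rfl

/-- **(T4.a)** `‖u‖ = 1` ⟹ `X(u) ≡ u/(1-u)²  (mod q)`. -/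
theorem norm_X_sub_le (hq0 : q ≠ 0) (hq1 : ‖q‖ < 1) (hu : ‖u‖ = 1)
    (hs : Summable fun n : ℤ => xTerm (q ^ n * u)) : ‖X q u - xTerm u‖ ≤ ‖q‖ :=
  norm_tateX_sub_le (norm_pos_iff.2 hq0) hq1 (norm_sK_le 1 hq1) hu hs

/-- **(T4.a)** `‖u‖ = 1` ⟹ `Y(u) ≡ u²/(1-u)³  (mod q)`. -/
theorem norm_Y_sub_le (hq0 : q ≠ 0) (hq1 : ‖q‖ < 1) (hu : ‖u‖ = 1)
    (hs : Summable fun n : ℤ => yTerm (q ^ n * u)) : ‖Y q u - yTerm u‖ ≤ ‖q‖ :=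
  norm_tateY_sub_le (norm_pos_iff.2 hq0) hq1 (norm_sK_le 1 hq1) hu hs

/-- **(T4.b)** `‖u‖ = 1`, `u ≠ 1`, `‖1 - u‖ < 1` ⟹ `X(u)` is not integral. -/
theorem one_lt_norm_X (hq0 : q ≠ 0) (hq1 : ‖q‖ < 1) (hu : ‖u‖ = 1) (hu1 : u ≠ 1)
    (h1u : ‖1 - u‖ < 1) (hs : Summable fun n : ℤ => xTerm (q ^ n * u)) : 1 < ‖X q u‖ :=
  one_lt_norm_tateX (norm_pos_iff.2 hq0) hq1 (norm_sK_le 1 hq1) hu hu1 h1u hs

/-- **(T4.c)** `‖q‖ < ‖u‖ < 1` ⟹ `‖X(u)‖ < 1`. -/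
theorem norm_X_lt_one (hq0 : q ≠ 0) (hq1 : ‖q‖ < 1) (hu0 : ‖q‖ < ‖u‖) (hu1 : ‖u‖ < 1) :
    ‖X q u‖ < 1 :=
  norm_tateX_lt_one (norm_pos_iff.2 hq0) hq1 (norm_sK_le 1 hq1) hu0 hu1

/-- **(T4.c)** `‖q‖ < ‖u‖ < 1` ⟹ `‖Y(u)‖ < 1`. -/
theorem norm_Y_lt_one (hq0 : q ≠ 0) (hq1 : ‖q‖ < 1) (hu0 : ‖q‖ < ‖u‖) (hu1 : ‖u‖ < 1) :
    ‖Y q u‖ < 1 :=
  norm_tateY_lt_one (norm_pos_iff.2 hq0) hq1 (norm_sK_le 1 hq1) hu0 hu1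

theorem norm_X_eq_one (hq0 : q ≠ 0) (hq1 : ‖q‖ < 1) (hu : ‖u‖ = 1) (h1u : ‖1 - u‖ = 1)
    (hs : Summable fun n : ℤ => xTerm (q ^ n * u)) : ‖X q u‖ = 1 :=
  norm_tateX_eq_one (norm_pos_iff.2 hq0) hq1 (norm_sK_le 1 hq1) hu h1u hs

theorem norm_Y_le_one (hq0 : q ≠ 0) (hq1 : ‖q‖ < 1) (hu : ‖u‖ = 1) (h1u : ‖1 - u‖ = 1)
    (hs : Summable fun n : ℤ => yTerm (q ^ n * u)) : ‖Y q u‖ ≤ 1 :=
  norm_tateY_le_one (norm_pos_iff.2 hq0) hq1 (norm_sK_le 1 hq1) hu h1u hs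

end Pinned

end Fermat.Agent.GZ.Tate.T4
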